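/-
S55 / 34-CYCLO-RECIP (helper90): elementary p-adic inputs of the (theta-twisted) reciprocity law
for the cyclotomic `ℤ_p`-tower.  Mathlib only.

* `exists_pow_prime_pow_eq` (E1): a unit `u` of `ℤ_[p]` (p odd) whose image in
  `ZMod (p^(m+1))` has order dividing `p-1` is a `p^m`-th power in `ℤ_[p]`.
* `pow_dvd_of_pow_eq_one` (E2): for a prime `q ≠ p` the order of `q^(p-1)` modulo `p^(j+k)`
  is divisible by `p^k` (`j = v_p(q^(p-1)-1)`), i.e. the local degrees of the cyclotomic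
  `ℤ_p`-tower at `q` are unbounded.
-/
import Mathlib

set_option autoImplicit false

namespace Fermat.Agent.S55.CycloRecip90

open Polynomial

section Ring

variable {R : Type*} [CommRing R]

/-- If `y ≡ 1 mod p^j` with `j ≥ 1` then `y^p ≡ 1 mod p^(j+1)`. -/
lemma pow_succ_dvd_pow_prime_sub_one (p : ℕ) {j : ℕ} (hj : 1 ≤ j) {y : R}
    (h : (p : R) ^ j ∣ y - 1) : (p : R) ^ (j + 1) ∣ y ^ p - 1 := by
  have hp : (p : R) ∣ y - 1 := dvd_trans (dvd_pow_self _ (by omega)) h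
  -- `y^p - 1 = (∑ i < p, y^i) * (y - 1)` and the geometric sum is divisible by `p`
  have hgeom : (∑ i ∈ Finset.range p, y ^ i) * (y - 1) = y ^ p - 1 := geom_sum_mul y p
  have hsum : (p : R) ∣ ∑ i ∈ Finset.range p, y ^ i := by
    have h1 : (∑ i ∈ Finset.range p, y ^ i) =
        (∑ i ∈ Finset.range p, (y ^ i - 1)) + (p : R) := by
      rw [Finset.sum_sub_distrib]; simp
    rw [h1]
    refine dvd_add (Finset.dvd_sum fun i _ => ?_) dvd_rfl
    exact dvd_trans hp (by simpa using sub_dvd_pow_sub_pow y 1 i)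
  rw [← hgeom, pow_succ, mul_comm ((p : R) ^ j)]
  exact mul_dvd_mul hsum h

/-- If `y ≡ 1 mod p^j` with `j ≥ 1` then `y^(p^m) ≡ 1 mod p^(j+m)`. -/
lemma pow_add_dvd_pow_prime_pow_sub_one (p : ℕ) {j : ℕ} (hj : 1 ≤ j) {y : R}
    (h : (p : R) ^ j ∣ y - 1) (m : ℕ) : (p : R) ^ (j + m) ∣ y ^ p ^ m - 1 := by
  induction m with
  | zero => simpa using h
  | succ m ih =>
    rw [pow_succ, pow_mul, ← add_assoc]
    exact pow_succ_dvd_pow_prime_sub_one p (by omega) ih

end Ring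

/-- In a finite cyclic group of order `N`, an element killed by `N / d` (`d ∣ N`) is a `d`-th
power. -/
lemma exists_pow_eq_of_isCyclic {G : Type*} [Group G] [Finite G] [IsCyclic G] {d : ℕ}
    (hd : d ∣ Nat.card G) {x : G} (hx : x ^ (Nat.card G / d) = 1) : ∃ y : G, y ^ d = x := by
  obtain ⟨g, hg⟩ := IsCyclic.exists_generator (α := G)
  obtain ⟨a, rfl⟩ : ∃ a : ℕ, g ^ a = x := by
    obtain ⟨k, hk⟩ := hg x
    refine ⟨(k % (orderOf g : ℤ)).toNat, ?_⟩
    have hpos : 0 < orderOf g := orderOf_pos g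
    have h0 : 0 ≤ k % (orderOf g : ℤ) := Int.emod_nonneg _ (by exact_mod_cast hpos.ne')
    rw [← zpow_natCast, Int.toNat_of_nonneg h0, zpow_mod_orderOf]
    exact hk
  have hord : orderOf g = Nat.card G := orderOf_eq_card_of_forall_mem_zpowers hg
  obtain ⟨e, he⟩ := hd
  have hdpos : 0 < d := by
    rcases Nat.eq_zero_or_pos d with h | h
    · subst h; simp at he; exact absurd he (Nat.card_pos.ne')
    · exact h
  rw [he, Nat.mul_div_cancel_left _ hdpos, ← pow_mul] at hx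
  have hdvd : Nat.card G ∣ a * e := by rw [← hord]; exact orderOf_dvd_of_pow_eq_one hx
  rw [he] at hdvd
  have hepos : 0 < e := by
    rcases Nat.eq_zero_or_pos e with h | h
    · subst h; simp at he; exact absurd he (Nat.card_pos.ne')
    · exact h
  have : d ∣ a := by
    have := (Nat.mul_dvd_mul_iff_right hepos).1 hdvd
    exact this
  obtain ⟨b, rfl⟩ := this
  exact ⟨g ^ b, by rw [← pow_mul, mul_comm]⟩

variable {p : ℕ} [hp : Fact p.Prime]

/-- **(E1)** For `p` odd: a unit `u` of `ℤ_[p]` whose image in `ZMod (p^(m+1))` is killed by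
`p - 1` is a `p^m`-th power in `ℤ_[p]`. -/
theorem exists_pow_prime_pow_eq (hp2 : p ≠ 2) (m : ℕ) {u : ℤ_[p]} (hu : IsUnit u)
    (h : (PadicInt.toZModPow (m + 1) u) ^ (p - 1) = 1) : ∃ z : ℤ_[p], z ^ p ^ m = u := by
  have hpprime : p.Prime := hp.out
  -- Step 1: `u^((p-1) p^m) ≡ 1 mod p^(2m+1)`.
  have h1 : (p : ℤ_[p]) ^ (m + 1) ∣ u ^ (p - 1) - 1 := by
    rw [← Ideal.mem_span_singleton, ← PadicInt.ker_toZModPow, RingHom.mem_ker, map_sub, map_pow,
      h, map_one, sub_self]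
  have h2 : (p : ℤ_[p]) ^ (m + 1 + m) ∣ (u ^ (p - 1)) ^ p ^ m - 1 :=
    pow_add_dvd_pow_prime_pow_sub_one p (by omega) h1 m
  set N : ℕ := 2 * m + 1 with hN
  have h3 : (PadicInt.toZModPow N u) ^ ((p - 1) * p ^ m) = 1 := by
    have : (u ^ (p - 1)) ^ p ^ m - 1 ∈ RingHom.ker (PadicInt.toZModPow (p := p) N) := by
      rw [PadicInt.ker_toZModPow, Ideal.mem_span_singleton]
      have : m + 1 + m = N := by omega
      rwa [this] at h2
    rw [RingHom.mem_ker, map_sub, map_one, sub_eq_zero, map_pow, map_pow, ← pow_mul] at this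
    exact this
  -- Step 2: the image of `u` in the cyclic group `(ZMod (p^N))ˣ` is a `p^m`-th power.
  haveI : NeZero (p ^ N) := ⟨pow_ne_zero _ hpprime.ne_zero⟩
  have hcyc : IsCyclic (ZMod (p ^ N))ˣ := ZMod.isCyclic_units_of_prime_pow p hpprime hp2 N
  let x : (ZMod (p ^ N))ˣ := (hu.map (PadicInt.toZModPow (p := p) N)).unit
  have hxval : (x : ZMod (p ^ N)) = PadicInt.toZModPow N u := rfl
  have hcard : Nat.card (ZMod (p ^ N))ˣ = p ^ (2 * m) * (p - 1) := by
    rw [Nat.card_eq_fintype_card, ZMod.card_units_eq_totient, Nat.totient_prime_pow hpprime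
      (by omega : 0 < N)]
    congr 2
  have hd : p ^ m ∣ Nat.card (ZMod (p ^ N))ˣ := by
    rw [hcard]
    exact dvd_mul_of_dvd_left (pow_dvd_pow _ (by omega)) _
  have hquot : Nat.card (ZMod (p ^ N))ˣ / p ^ m = (p - 1) * p ^ m := by
    rw [hcard]
    have : p ^ (2 * m) = p ^ m * p ^ m := by rw [← pow_add]; congr 1; omega
    rw [this, mul_assoc, Nat.mul_div_cancel_left _ (pow_pos hpprime.pos m), mul_comm]
  have hx1 : x ^ (Nat.card (ZMod (p ^ N))ˣ / p ^ m) = 1 := by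
    rw [hquot]
    apply Units.ext
    rw [Units.val_pow_eq_pow_val, hxval, h3, Units.val_one]
  obtain ⟨y, hy⟩ := exists_pow_eq_of_isCyclic hd hx1
  -- Step 3: lift `y` to `a : ℤ_[p]` and apply Hensel's lemma to `X^(p^m) - u`.
  let a : ℤ_[p] := ((y : ZMod (p ^ N)).val : ℤ_[p])
  have ha : PadicInt.toZModPow N a = (y : ZMod (p ^ N)) := by
    show PadicInt.toZModPow N (((y : ZMod (p ^ N)).val : ℕ) : ℤ_[p]) = _
    rw [map_natCast, ZMod.natCast_zmod_val]
  have hau : (p : ℤ_[p]) ^ N ∣ a ^ p ^ m - u := by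
    rw [← Ideal.mem_span_singleton, ← PadicInt.ker_toZModPow, RingHom.mem_ker, map_sub, map_pow,
      ha, ← Units.val_pow_eq_pow_val, hy, hxval, sub_self]
  have hnorm_diff : ‖a ^ p ^ m - u‖ ≤ (p : ℝ) ^ (-(N : ℤ)) := by
    rw [PadicInt.norm_le_pow_iff_mem_span_pow, Ideal.mem_span_singleton]
    exact hau
  have hunorm : ‖u‖ = 1 := PadicInt.isUnit_iff.1 hu
  have hp1 : (1 : ℝ) < p := by exact_mod_cast hpprime.one_lt
  have hlt1 : (p : ℝ) ^ (-(N : ℤ)) < 1 := by
    apply zpow_lt_one_of_neg₀ hp1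
    have : (0 : ℤ) < (N : ℤ) := by exact_mod_cast (by omega : 0 < N)
    omega
  have hanorm : ‖a‖ = 1 := by
    have hapow : ‖a ^ p ^ m‖ = 1 := by
      have : a ^ p ^ m = u + (a ^ p ^ m - u) := by ring
      rw [this, PadicInt.norm_add_eq_max_of_ne, hunorm]
      · exact max_eq_left (le_trans hnorm_diff hlt1.le)
      · rw [hunorm]; exact (lt_of_le_of_lt hnorm_diff hlt1).ne'
    rw [norm_pow] at hapow
    exact (pow_eq_one_iff_of_nonneg (norm_nonneg a) (pow_pos hpprime.pos m).ne').1 hapow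
  let F : ℤ_[p][X] := X ^ p ^ m - C u
  have hFa : aeval a F = a ^ p ^ m - u := by simp [F]
  have hF'a : aeval a (derivative F) = (p : ℤ_[p]) ^ m * a ^ (p ^ m - 1) := by
    simp [F, derivative_X_pow]
  have hder : ‖aeval a (derivative F)‖ = (p : ℝ) ^ (-(m : ℤ)) := by
    rw [hF'a, norm_mul, norm_pow, norm_pow, hanorm, one_pow, mul_one, PadicInt.norm_p, inv_pow,
      zpow_neg, zpow_natCast]
  have hhensel : ‖aeval a F‖ < ‖aeval a (derivative F)‖ ^ 2 := by
    rw [hFa, hder]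
    refine lt_of_le_of_lt hnorm_diff ?_
    rw [← zpow_natCast, ← zpow_mul]
    apply zpow_lt_zpow_right₀ hp1
    push_cast [hN]
    omega
  obtain ⟨z, hz, -⟩ := hensels_lemma hhensel
  refine ⟨z, ?_⟩
  have : aeval z F = z ^ p ^ m - u := by simp [F]
  rw [this, sub_eq_zero] at hz
  exact hz

/-- **(E2)** Let `q ≠ p` be a prime, `p` odd, `j = v_p(q^(p-1) - 1)`.  If
`(q^(p-1))^e ≡ 1 mod p^(j+k)` then `p^k ∣ e`: the order of `q` in the pro-`p` part of
`(ℤ/p^n)ˣ` is unbounded. -/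
theorem pow_dvd_of_pow_eq_one (hp2 : p ≠ 2) {q : ℕ} (hq : q.Prime) (hqp : q ≠ p) (k e : ℕ)
    (h : p ^ (padicValNat p (q ^ (p - 1) - 1) + k) ∣ (q ^ (p - 1)) ^ e - 1) : p ^ k ∣ e := by
  have hpprime : p.Prime := hp.out
  rcases Nat.eq_zero_or_pos e with he | he
  · subst he; exact dvd_zero _
  have hodd : Odd p := hpprime.odd_of_ne_two hp2
  set x : ℕ := q ^ (p - 1) with hx
  have hp1 : 1 ≤ p - 1 := by have := hpprime.two_le; omega
  have hx1 : 1 < x := by
    have : 2 ^ (p - 1) ≤ q ^ (p - 1) := Nat.pow_le_pow_left hq.two_le _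
    have h2 : 2 ≤ 2 ^ (p - 1) := by
      calc 2 = 2 ^ 1 := by norm_num
        _ ≤ 2 ^ (p - 1) := Nat.pow_le_pow_right (by norm_num) hp1
    omega
  have hcop : ¬ p ∣ q := fun hdvd => hqp ((Nat.prime_dvd_prime_iff_eq hpprime hq).1 hdvd).symm
  have hxp : ¬ p ∣ x := fun hdvd => hcop (hpprime.dvd_of_dvd_pow hdvd)
  have hferm : p ∣ x - 1 := by
    have hcop' : Nat.Coprime q p := (Nat.coprime_primes hq hpprime).2 hqp
    have := Nat.ModEq.pow_totient hcop'
    rw [Nat.totient_prime hpprime] at this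
    exact (Nat.modEq_iff_dvd' hx1.le).1 this.symm
  have hLTE := padicValNat.pow_sub_pow hodd hx1 (by simpa using hferm) hxp he.ne'
  rw [one_pow] at hLTE
  have hxe : x ^ e - 1 ≠ 0 := by
    have : 1 < x ^ e := Nat.one_lt_pow he.ne' hx1
    omega
  have hle := (padicValNat_dvd_iff_le hxe).1 h
  rw [hLTE] at hle
  exact (padicValNat_dvd_iff_le he.ne').2 (by omega)

end Fermat.Agent.S55.CycloRecip90
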