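/-
S55 / 34-CYCLO-RECIP (helper90): the explicit ("fake") local symbol of the cyclotomic
`ℤ_p`-tower at `p` and the identification of its kernel with any subgroup of `ℚ_[p]ˣ`
having the formal properties of the norm group of the degree-`p^m` layer.  Mathlib only.
-/
import Fermat.Agent.S55.CycloRecip90.Elementary

set_option autoImplicit false

namespace Fermat.Agent.S55.CycloRecip90

variable {p : ℕ} [hp : Fact p.Prime]

lemma norm_mul_zpow_neg_valuation {x : ℚ_[p]} (hx : x ≠ 0) :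
    ‖x * (p : ℚ_[p]) ^ (-x.valuation)‖ = 1 := by
  have hp0 : (0 : ℝ) < p := by exact_mod_cast hp.out.pos
  rw [norm_mul, norm_zpow, Padic.norm_eq_zpow_neg_valuation hx, Padic.norm_p, inv_zpow,
    ← zpow_neg, neg_neg, ← zpow_add₀ hp0.ne', neg_add_cancel, zpow_zero]

/-- The unit part `x ↦ x · p^(-v(x))` as a group homomorphism `ℚ_[p]ˣ →* ℤ_[p]ˣ`. -/
noncomputable def unitPart : ℚ_[p]ˣ →* ℤ_[p]ˣ where
  toFun x := PadicInt.mkUnits (norm_mul_zpow_neg_valuation (x := (x : ℚ_[p])) x.ne_zero)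
  map_one' := by
    apply Units.ext
    apply Subtype.ext
    simp [PadicInt.mkUnits]
  map_mul' x y := by
    apply Units.ext
    apply Subtype.ext
    have hp0 : (p : ℚ_[p]) ≠ 0 := by exact_mod_cast hp.out.ne_zero
    simp only [PadicInt.mkUnits, Units.val_mul, PadicInt.coe_mul]
    rw [Padic.valuation_mul x.ne_zero y.ne_zero, neg_add, zpow_add₀ hp0]
    ring

lemma coe_unitPart (x : ℚ_[p]ˣ) :
    (((unitPart x : ℤ_[p]ˣ) : ℤ_[p]) : ℚ_[p]) = (x : ℚ_[p]) * (p : ℚ_[p]) ^ (-(x : ℚ_[p]).valuation) :=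
  rfl

/-- `x = unitPart x * p ^ v(x)`. -/
lemma eq_unitPart_mul (x : ℚ_[p]ˣ) :
    (x : ℚ_[p]) = (((unitPart x : ℤ_[p]ˣ) : ℤ_[p]) : ℚ_[p]) * (p : ℚ_[p]) ^ ((x : ℚ_[p]).valuation) := by
  have hp0 : (p : ℚ_[p]) ≠ 0 := by exact_mod_cast hp.out.ne_zero
  rw [coe_unitPart, mul_assoc, ← zpow_add₀ hp0, neg_add_cancel, zpow_zero, mul_one]

/-- The class `[u] ∈ (ℤ/p^(m+1))ˣ` of a `p`-adic unit. -/
noncomputable def unitClass (m : ℕ) : ℤ_[p]ˣ →* (ZMod (p ^ (m + 1)))ˣ :=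
  Units.map (PadicInt.toZModPow (p := p) (m + 1)).toMonoidHom

/-- The fake local symbol `λ'(u pʲ) = ([u]^(p-1))⁻¹ ∈ (ℤ/p^(m+1))ˣ`; raising to the power `p-1`
identifies the quotient of `(ℤ/p^(m+1))ˣ` by `μ_{p-1}` with its `p`-Sylow subgroup. -/
noncomputable def fakeSymbol (m : ℕ) : ℚ_[p]ˣ →* (ZMod (p ^ (m + 1)))ˣ :=
  (MonoidHom.id _)⁻¹.comp (((powMonoidHom (p - 1)).comp (unitClass m)).comp unitPart)

lemma fakeSymbol_apply (m : ℕ) (x : ℚ_[p]ˣ) :
    fakeSymbol m x = ((unitClass m (unitPart x)) ^ (p - 1))⁻¹ := rfl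

lemma mem_ker_fakeSymbol_iff (m : ℕ) (x : ℚ_[p]ˣ) :
    x ∈ (fakeSymbol (p := p) m).ker ↔ (unitClass m (unitPart x)) ^ (p - 1) = 1 := by
  rw [MonoidHom.mem_ker, fakeSymbol_apply, inv_eq_one]

/-- The unit `p` of `ℚ_[p]`. -/
noncomputable def pUnit : ℚ_[p]ˣ :=
  Units.mk0 (p : ℚ_[p]) (by exact_mod_cast hp.out.ne_zero)

/-- **FACT 1, inclusion.**  A subgroup `H` of `ℚ_[p]ˣ` containing `p` and all `p^m`-th powers
contains the kernel of the fake symbol (`p` odd). -/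
theorem ker_fakeSymbol_le (hp2 : p ≠ 2) (m : ℕ) (H : Subgroup ℚ_[p]ˣ) (hpH : pUnit ∈ H)
    (hpow : ∀ x : ℚ_[p]ˣ, x ^ p ^ m ∈ H) : (fakeSymbol (p := p) m).ker ≤ H := by
  intro x hx
  rw [mem_ker_fakeSymbol_iff] at hx
  set u : ℤ_[p]ˣ := unitPart x with hu
  have h1 : (PadicInt.toZModPow (m + 1) (u : ℤ_[p])) ^ (p - 1) = 1 := by
    have := congrArg Units.val hx
    simpa [unitClass] using this
  obtain ⟨z, hz⟩ := exists_pow_prime_pow_eq hp2 m u.isUnit h1
  have hz0 : (z : ℚ_[p]) ≠ 0 := by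
    intro h0
    have : z = 0 := Subtype.ext h0
    rw [this, zero_pow (pow_pos hp.out.pos m).ne'] at hz
    exact u.ne_zero hz.symm
  -- `x = (z as a unit)^(p^m) * p^v`
  have hx' : x = (Units.mk0 (z : ℚ_[p]) hz0) ^ p ^ m * pUnit ^ ((x : ℚ_[p]).valuation) := by
    apply Units.ext
    rw [Units.val_mul, Units.val_pow_eq_pow_val, Units.val_zpow_eq_zpow_val]
    simp only [Units.val_mk0, pUnit]
    conv_lhs => rw [eq_unitPart_mul x]
    rw [← hu, ← hz]
    push_cast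
    rfl
  rw [hx']
  exact H.mul_mem (hpow _) (H.zpow_mem hpH _)

/-- Every `p`-adic unit is the unit part of itself. -/
lemma unitPart_coe_unit (u : ℤ_[p]ˣ) :
    unitPart (Units.map (PadicInt.Coe.ringHom (p := p)).toMonoidHom u) = u := by
  apply Units.ext
  apply Subtype.ext
  have hnorm : ‖((u : ℤ_[p]) : ℚ_[p])‖ = 1 := PadicInt.isUnit_iff.1 u.isUnit
  have hne : ((u : ℤ_[p]) : ℚ_[p]) ≠ 0 := by
    intro h0; rw [h0, norm_zero] at hnorm; exact zero_ne_one hnorm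
  have hval : (((u : ℤ_[p]) : ℚ_[p])).valuation = 0 := by
    have h1 := Padic.norm_eq_zpow_neg_valuation hne
    rw [hnorm] at h1
    have hp1 : (1 : ℝ) < p := by exact_mod_cast hp.out.one_lt
    have := zpow_right_injective₀ (by linarith : (0 : ℝ) < p) hp1.ne' (a₁ := 0)
      (a₂ := -(((u : ℤ_[p]) : ℚ_[p])).valuation) (by simpa using h1)
    omega
  show ((u : ℤ_[p]) : ℚ_[p]) * (p : ℚ_[p]) ^ (-(((u : ℤ_[p]) : ℚ_[p])).valuation) = _
  rw [hval, neg_zero, zpow_zero, mul_one]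

lemma unitPart_surjective : Function.Surjective (unitPart (p := p)) :=
  fun u => ⟨_, unitPart_coe_unit u⟩

lemma unitClass_surjective (m : ℕ) : Function.Surjective (unitClass (p := p) m) := by
  intro y
  haveI : NeZero (p ^ (m + 1)) := ⟨pow_ne_zero _ hp.out.ne_zero⟩
  obtain ⟨a, ha⟩ := ZMod.ringHom_surjective (PadicInt.toZModPow (p := p) (m + 1)) (y : ZMod _)
  obtain ⟨b, hb⟩ := ZMod.ringHom_surjective (PadicInt.toZModPow (p := p) (m + 1))
    ((y⁻¹ : (ZMod (p ^ (m + 1)))ˣ) : ZMod _)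
  -- `a * b ≡ 1 mod p^(m+1)`, hence `a` is a unit
  have hab : PadicInt.toZModPow (m + 1) (a * b - 1) = 0 := by
    rw [map_sub, map_mul, ha, hb, map_one, ← Units.val_mul, mul_inv_cancel, Units.val_one,
      sub_self]
  have hmem : a * b - 1 ∈ Ideal.span {(p : ℤ_[p]) ^ (m + 1)} := by
    rw [← PadicInt.ker_toZModPow, RingHom.mem_ker]; exact hab
  have hlt : ‖a * b - 1‖ < 1 := by
    rw [← PadicInt.norm_le_pow_iff_mem_span_pow] at hmem
    refine lt_of_le_of_lt hmem ?_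
    have hp1 : (1 : ℝ) < p := by exact_mod_cast hp.out.one_lt
    apply zpow_lt_one_of_neg₀ hp1
    have : (0 : ℤ) < ((m + 1 : ℕ) : ℤ) := by exact_mod_cast Nat.succ_pos m
    omega
  have hab1 : ‖a * b‖ = 1 := by
    have : a * b = 1 + (a * b - 1) := by ring
    rw [this, PadicInt.norm_add_eq_max_of_ne, norm_one]
    · exact max_eq_left hlt.le
    · rw [norm_one]; exact hlt.ne'
  have ha1 : ‖a‖ = 1 := by
    rw [norm_mul] at hab1
    have h1 := PadicInt.norm_le_one a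
    have h2 := PadicInt.norm_le_one b
    have h3 : 0 ≤ ‖a‖ := norm_nonneg a
    have h4 : 0 ≤ ‖b‖ := norm_nonneg b
    nlinarith
  refine ⟨(PadicInt.isUnit_iff.2 ha1).unit, ?_⟩
  apply Units.ext
  simpa [unitClass] using ha

/-- The range of the fake symbol is the subgroup of `(p-1)`-th powers. -/
lemma range_fakeSymbol (m : ℕ) :
    (fakeSymbol (p := p) m).range = (powMonoidHom (p - 1) : (ZMod (p ^ (m + 1)))ˣ →* _).range := by
  ext g
  constructor
  · rintro ⟨x, rfl⟩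
    rw [fakeSymbol_apply]
    exact Subgroup.inv_mem _ ⟨_, rfl⟩
  · rintro ⟨y, rfl⟩
    obtain ⟨u, hu⟩ := unitClass_surjective (p := p) m y⁻¹
    obtain ⟨x, hx⟩ := unitPart_surjective (p := p) u
    refine ⟨x, ?_⟩
    rw [fakeSymbol_apply, hx, hu, powMonoidHom_apply, inv_pow, inv_inv]

/-- **Index of the kernel of the fake symbol**: `[ℚ_[p]ˣ : ker λ'] = p^m` (`p` odd). -/
theorem index_ker_fakeSymbol (hp2 : p ≠ 2) (m : ℕ) :
    (fakeSymbol (p := p) m).ker.index = p ^ m := by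
  have hpprime : p.Prime := hp.out
  haveI : NeZero (p ^ (m + 1)) := ⟨pow_ne_zero _ hpprime.ne_zero⟩
  haveI : IsCyclic (ZMod (p ^ (m + 1)))ˣ := ZMod.isCyclic_units_of_prime_pow p hpprime hp2 _
  rw [Subgroup.index_ker, range_fakeSymbol, IsCyclic.card_powMonoidHom_range]
  have hcard : Nat.card (ZMod (p ^ (m + 1)))ˣ = p ^ m * (p - 1) := by
    rw [Nat.card_eq_fintype_card, ZMod.card_units_eq_totient,
      Nat.totient_prime_pow hpprime (Nat.succ_pos m)]
    simp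
  rw [hcard]
  have hcop : Nat.Coprime (p ^ m) (p - 1) := by
    apply Nat.Coprime.pow_left
    have h1 : 1 ≤ p := hpprime.one_lt.le
    have := (Nat.coprime_self_sub_right h1).2 (Nat.coprime_one_right p)
    exact this
  have hgcd : (p ^ m * (p - 1)).gcd (p - 1) = p - 1 :=
    Nat.gcd_eq_right (dvd_mul_left _ _)
  rw [hgcd, Nat.mul_div_cancel _ (by have := hpprime.two_le; omega)]

/-- **FACT 1.**  Let `p` be odd.  A subgroup `H ≤ ℚ_[p]ˣ` of index `p^m` which contains `p` and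
all `p^m`-th powers (e.g. the norm group of the degree-`p^m` layer of the cyclotomic
`ℤ_p`-extension of `ℚ_p`) is the kernel of the explicit fake symbol. -/
theorem eq_ker_fakeSymbol (hp2 : p ≠ 2) (m : ℕ) (H : Subgroup ℚ_[p]ˣ) (hpH : pUnit ∈ H)
    (hpow : ∀ x : ℚ_[p]ˣ, x ^ p ^ m ∈ H) (hidx : H.index = p ^ m) :
    H = (fakeSymbol (p := p) m).ker := by
  have hle := ker_fakeSymbol_le hp2 m H hpH hpow
  refine le_antisymm ?_ hle
  have h1 := Subgroup.relIndex_mul_index hle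
  rw [hidx, index_ker_fakeSymbol hp2 m] at h1
  have hpos : 0 < p ^ m := pow_pos hp.out.pos m
  have h2 : (fakeSymbol (p := p) m).ker.relIndex H = 1 := by
    have := Nat.eq_of_mul_eq_mul_right hpos (by rw [h1, one_mul] : _ * p ^ m = 1 * p ^ m)
    exact this
  exact Subgroup.relIndex_eq_one.1 h2

end Fermat.Agent.S55.CycloRecip90
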