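/-
S55 / 34-E (helper90): the explicit local symbols `ρ_q` of the cyclotomic `ℤ_p`-tower and the
product formula (R1) `∏_q ρ_q(b) = 1` for `b ∈ ℚˣ`.  Mathlib only.

* `Gamma p m`      : the subgroup `Γ_m` of `(p-1)`-th powers in `(ZMod (p^(m+1)))ˣ` (cyclic of order `p^m`).
* `angle m a ha`   : `⟨a⟩ = [a]^(p-1)` for a natural number `a` prime to `p`.
* `frobSymbol m l hl : ℚ_[l]ˣ →* (ZMod (p^(m+1)))ˣ`, `x ↦ ⟨l⟩^(v_l x)`   (`l ≠ p`)          [= ρ_l]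
* `fakeSymbol m    : ℚ_[p]ˣ →* (ZMod (p^(m+1)))ˣ`, `pᵏ u ↦ (⟨u⟩)⁻¹`   (in `FakeSymbol.lean`)  [= ρ_p]
* `rhoRat m q      : ℚˣ →* (ZMod (p^(m+1)))ˣ` the restriction of `ρ_q` to `ℚˣ`, `q : Nat.Primes`.
* `rhoGlobal m     : ℚˣ →* (ZMod (p^(m+1)))ˣ`, `b ↦ ∏ᶠ q, rhoRat m q b`; the product formula (R1)
  `rhoGlobal m b = 1` is in `ProductFormula.lean`.
-/
import Fermat.Agent.S55.CycloRecip90.FakeSymbol

set_option autoImplicit false

namespace Fermat.Agent.S55.CycloRecip90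

open Function

variable {p : ℕ} [hp : Fact p.Prime]

/-- `Γ_m`: the `(p-1)`-th powers in `(ℤ/p^(m+1))ˣ`. -/
def Gamma (p m : ℕ) : Subgroup (ZMod (p ^ (m + 1)))ˣ :=
  (powMonoidHom (p - 1) : (ZMod (p ^ (m + 1)))ˣ →* (ZMod (p ^ (m + 1)))ˣ).range

/-- `⟨a⟩ = [a]^(p-1)` for a natural number `a` prime to `p`. -/
noncomputable def angle (m : ℕ) (a : ℕ) (ha : a.Coprime p) : (ZMod (p ^ (m + 1)))ˣ :=
  (ZMod.unitOfCoprime a (Nat.Coprime.pow_right _ ha)) ^ (p - 1)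

lemma angle_mem_Gamma (m : ℕ) (a : ℕ) (ha : a.Coprime p) : angle (p := p) m a ha ∈ Gamma p m :=
  ⟨_, rfl⟩

lemma fakeSymbol_mem_Gamma (m : ℕ) (x : ℚ_[p]ˣ) : fakeSymbol (p := p) m x ∈ Gamma p m := by
  rw [fakeSymbol_apply]
  exact Subgroup.inv_mem _ ⟨_, rfl⟩

/-- The valuation as a homomorphism `ℚ_[q]ˣ →* Multiplicative ℤ`. -/
noncomputable def valHom (q : ℕ) [Fact q.Prime] : ℚ_[q]ˣ →* Multiplicative ℤ where
  toFun x := Multiplicative.ofAdd ((x : ℚ_[q]).valuation)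
  map_one' := by simp [Padic.valuation_one]
  map_mul' x y := by
    simp only [Units.val_mul, Padic.valuation_mul x.ne_zero y.ne_zero, ofAdd_add]

/-- `ρ_l` for `l ≠ p`: `x ↦ ⟨l⟩^(v_l x)`. -/
noncomputable def frobSymbol (m : ℕ) (l : ℕ) [hl : Fact l.Prime] (hlp : l ≠ p) :
    ℚ_[l]ˣ →* (ZMod (p ^ (m + 1)))ˣ :=
  (zpowersHom _ (angle (p := p) m l ((Nat.coprime_primes hl.out hp.out).2 hlp))).comp (valHom l)

lemma frobSymbol_apply (m : ℕ) (l : ℕ) [hl : Fact l.Prime] (hlp : l ≠ p) (x : ℚ_[l]ˣ) :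
    frobSymbol (p := p) m l hlp x =
      (angle (p := p) m l ((Nat.coprime_primes hl.out hp.out).2 hlp)) ^ ((x : ℚ_[l]).valuation) := by
  simp [frobSymbol, valHom, zpowersHom_apply]

lemma frobSymbol_mem_Gamma (m : ℕ) (l : ℕ) [hl : Fact l.Prime] (hlp : l ≠ p) (x : ℚ_[l]ˣ) :
    frobSymbol (p := p) m l hlp x ∈ Gamma p m := by
  rw [frobSymbol_apply]
  exact Subgroup.zpow_mem _ (angle_mem_Gamma m l _) _

/-- Units of `ℚ` as units of `ℚ_[q]`. -/
noncomputable def ratUnitsToPadic (q : ℕ) [Fact q.Prime] : ℚˣ →* ℚ_[q]ˣ :=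
  Units.map (Rat.castHom ℚ_[q]).toMonoidHom

@[simp] lemma coe_ratUnitsToPadic (q : ℕ) [Fact q.Prime] (b : ℚˣ) :
    ((ratUnitsToPadic q b : ℚ_[q]ˣ) : ℚ_[q]) = ((b : ℚ) : ℚ_[q]) := rfl

/-- The restriction of `ρ_q` to `ℚˣ`. -/
noncomputable def rhoRat (m : ℕ) (q : Nat.Primes) : ℚˣ →* (ZMod (p ^ (m + 1)))ˣ :=
  haveI : Fact (q : ℕ).Prime := ⟨q.2⟩
  if h : (q : ℕ) = p then (fakeSymbol (p := p) m).comp (ratUnitsToPadic p)
  else (frobSymbol (p := p) m q h).comp (ratUnitsToPadic q)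

lemma rhoRat_of_eq (m : ℕ) (q : Nat.Primes) (h : (q : ℕ) = p) (b : ℚˣ) :
    rhoRat (p := p) m q b = fakeSymbol (p := p) m (ratUnitsToPadic p b) := by
  simp [rhoRat, h]

lemma rhoRat_of_ne (m : ℕ) (q : Nat.Primes) (h : (q : ℕ) ≠ p) (b : ℚˣ) :
    rhoRat (p := p) m q b =
      (angle (p := p) m q ((Nat.coprime_primes q.2 hp.out).2 h)) ^ (padicValRat q (b : ℚ)) := by
  haveI : Fact (q : ℕ).Prime := ⟨q.2⟩
  simp only [rhoRat, h, dite_false, MonoidHom.comp_apply]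
  rw [frobSymbol_apply, coe_ratUnitsToPadic, Padic.valuation_ratCast]

lemma rhoRat_mem_Gamma (m : ℕ) (q : Nat.Primes) (b : ℚˣ) : rhoRat (p := p) m q b ∈ Gamma p m := by
  haveI : Fact (q : ℕ).Prime := ⟨q.2⟩
  by_cases h : (q : ℕ) = p
  · rw [rhoRat_of_eq m q h]; exact fakeSymbol_mem_Gamma m _
  · rw [rhoRat_of_ne m q h]; exact Subgroup.zpow_mem _ (angle_mem_Gamma m q _) _

/-- The unit part of a natural number prime to `p`. -/
lemma unitClass_unitPart_natCast (m : ℕ) (a : ℕ) (ha : a.Coprime p) (b : ℚˣ) (hb : (b : ℚ) = a) :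
    unitClass (p := p) m (unitPart (ratUnitsToPadic p b)) =
      ZMod.unitOfCoprime a (Nat.Coprime.pow_right _ ha) := by
  apply Units.ext
  have hval : ((ratUnitsToPadic p b : ℚ_[p]ˣ) : ℚ_[p]).valuation = 0 := by
    rw [coe_ratUnitsToPadic, hb, Rat.cast_natCast, Padic.valuation_natCast]
    have : ¬ p ∣ a := fun hdvd => by
      have := Nat.Coprime.eq_one_of_dvd ha.symm hdvd
      exact hp.out.one_lt.ne' this
    simp [padicValNat.eq_zero_of_not_dvd this]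
  have hcoe : (((unitPart (ratUnitsToPadic p b) : ℤ_[p]ˣ) : ℤ_[p]) : ℚ_[p]) = ((a : ℤ_[p]) : ℚ_[p]) := by
    rw [coe_unitPart, hval, neg_zero, zpow_zero, mul_one, coe_ratUnitsToPadic, hb]
    simp
  have hint : ((unitPart (ratUnitsToPadic p b) : ℤ_[p]ˣ) : ℤ_[p]) = (a : ℤ_[p]) :=
    Subtype.ext hcoe
  simp only [unitClass, Units.coe_map, RingHom.toMonoidHom_eq_coe, MonoidHom.coe_coe, hint,
    map_natCast, ZMod.coe_unitOfCoprime]

/-- The natural number `n ≠ 0` as a unit of `ℚ`. -/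
def natUnit (n : ℕ) (hn : n ≠ 0) : ℚˣ := Units.mk0 (n : ℚ) (by exact_mod_cast hn)

lemma mulSupport_rhoRat_subset (m : ℕ) (b : ℚˣ) :
    mulSupport (fun q : Nat.Primes => rhoRat (p := p) m q b) ⊆
      {q : Nat.Primes | (q : ℕ) = p ∨ padicValRat q (b : ℚ) ≠ 0} := by
  intro q hq
  by_contra hcon
  simp only [Set.mem_setOf_eq, not_or, not_not] at hcon
  apply hq
  show rhoRat (p := p) m q b = 1
  rw [rhoRat_of_ne m q hcon.1]
  have h0 := hcon.2
  simp only [h0, zpow_zero]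

lemma finite_primes_padicValRat_ne_zero (b : ℚˣ) :
    {q : Nat.Primes | padicValRat q (b : ℚ) ≠ 0}.Finite := by
  have hnum : (b : ℚ).num ≠ 0 := Rat.num_ne_zero.2 b.ne_zero
  have hden : (b : ℚ).den ≠ 0 := (b : ℚ).den_nz
  have hsub : {q : Nat.Primes | padicValRat q (b : ℚ) ≠ 0} ⊆
      (fun q : Nat.Primes => (q : ℕ)) ⁻¹'
        (((b : ℚ).num.natAbs.primeFactors ∪ (b : ℚ).den.primeFactors : Finset ℕ) : Set ℕ) := by
    intro q hq
    simp only [Set.mem_setOf_eq] at hq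
    simp only [Set.mem_preimage, Finset.coe_union, Set.mem_union, Finset.mem_coe,
      Nat.mem_primeFactors]
    by_contra hcon
    simp only [not_or, not_and, not_not] at hcon
    apply hq
    have h1 : ¬ (q : ℕ) ∣ (b : ℚ).num.natAbs := fun hd =>
      (Int.natAbs_ne_zero.2 hnum) (hcon.1 q.2 hd)
    have h2 : ¬ (q : ℕ) ∣ (b : ℚ).den := fun hd => hden (hcon.2 q.2 hd)
    rw [padicValRat_def, padicValInt, padicValNat.eq_zero_of_not_dvd h1,
      padicValNat.eq_zero_of_not_dvd h2]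
    simp
  exact Set.Finite.subset
    (Set.Finite.preimage (fun a _ b _ h => Subtype.ext h) (Finset.finite_toSet _)) hsub

lemma finite_mulSupport_rhoRat (m : ℕ) (b : ℚˣ) :
    (mulSupport (fun q : Nat.Primes => rhoRat (p := p) m q b)).Finite := by
  refine Set.Finite.subset ?_ (mulSupport_rhoRat_subset m b)
  have : {q : Nat.Primes | (q : ℕ) = p ∨ padicValRat q (b : ℚ) ≠ 0} =
      {q : Nat.Primes | (q : ℕ) = p} ∪ {q : Nat.Primes | padicValRat q (b : ℚ) ≠ 0} := by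
    ext q; simp
  rw [this]
  refine Set.Finite.union ?_ (finite_primes_padicValRat_ne_zero b)
  refine Set.Finite.subset (Set.finite_singleton (⟨p, hp.out⟩ : Nat.Primes)) ?_
  intro q hq
  exact Subtype.ext hq

/-- The global symbol `Ψ = ∏_q ρ_q` on `ℚˣ`. -/
noncomputable def rhoGlobal (m : ℕ) : ℚˣ →* (ZMod (p ^ (m + 1)))ˣ where
  toFun b := ∏ᶠ q : Nat.Primes, rhoRat (p := p) m q b
  map_one' := by simp
  map_mul' b c := by
    simp only [map_mul]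
    exact finprod_mul_distrib (finite_mulSupport_rhoRat m b) (finite_mulSupport_rhoRat m c)

lemma rhoGlobal_apply (m : ℕ) (b : ℚˣ) :
    rhoGlobal (p := p) m b = ∏ᶠ q : Nat.Primes, rhoRat (p := p) m q b := rfl

end Fermat.Agent.S55.CycloRecip90
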