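/-
S55 / 34-E (helper90): the product formula (R1) for the explicit symbols `ρ_q` of the cyclotomic
`ℤ_p`-tower:  `∏_q ρ_q(b) = 1` for every `b ∈ ℚˣ` (`p` odd; for `b > 0` also `p = 2`).
Mathlib only.
-/
import Fermat.Agent.S55.CycloRecip90.Rho

set_option autoImplicit false

namespace Fermat.Agent.S55.CycloRecip90

open Function

variable {p : ℕ} [hp : Fact p.Prime]

@[simp] lemma coe_natUnit (n : ℕ) (hn : n ≠ 0) : ((natUnit n hn : ℚˣ) : ℚ) = n := rfl

lemma natUnit_one : natUnit 1 one_ne_zero = 1 := by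
  apply Units.ext; simp

lemma natUnit_mul (a b : ℕ) (ha : a ≠ 0) (hb : b ≠ 0) :
    natUnit (a * b) (mul_ne_zero ha hb) = natUnit a ha * natUnit b hb := by
  apply Units.ext; simp

/-- `ρ_q(n) = 1` for `q ≠ p` not dividing the natural number `n`. -/
lemma rhoRat_natUnit_of_not_dvd (m : ℕ) (q : Nat.Primes) (hqp : (q : ℕ) ≠ p) (n : ℕ) (hn : n ≠ 0)
    (hqn : ¬ (q : ℕ) ∣ n) : rhoRat (p := p) m q (natUnit n hn) = 1 := by
  haveI : Fact (q : ℕ).Prime := ⟨q.2⟩
  rw [rhoRat_of_ne m q hqp]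
  have h0 : padicValRat q ((natUnit n hn : ℚˣ) : ℚ) = 0 := by
    rw [coe_natUnit, padicValRat.of_nat, padicValNat.eq_zero_of_not_dvd hqn]; rfl
  simp only [h0, zpow_zero]

/-- `ρ_p(n) = ⟨n⟩⁻¹` for a natural number `n` prime to `p`. -/
lemma rhoRat_self_natUnit (m : ℕ) (q : Nat.Primes) (hqp : (q : ℕ) = p) (n : ℕ) (hn : n ≠ 0)
    (hcop : n.Coprime p) : rhoRat (p := p) m q (natUnit n hn) = (angle (p := p) m n hcop)⁻¹ := by
  rw [rhoRat_of_eq m q hqp, fakeSymbol_apply,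
    unitClass_unitPart_natCast m n hcop (natUnit n hn) (coe_natUnit n hn)]
  rfl

lemma unitPart_pUnit : unitPart (pUnit : ℚ_[p]ˣ) = 1 := by
  apply Units.ext
  apply Subtype.ext
  have hp0 : (p : ℚ_[p]) ≠ 0 := by exact_mod_cast hp.out.ne_zero
  rw [coe_unitPart]
  simp only [pUnit, Units.val_mk0, Padic.valuation_p, zpow_neg, zpow_one, Units.val_one,
    PadicInt.coe_one]
  exact mul_inv_cancel₀ hp0

lemma fakeSymbol_pUnit (m : ℕ) : fakeSymbol (p := p) m pUnit = 1 := by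
  rw [fakeSymbol_apply, unitPart_pUnit, map_one, one_pow, inv_one]

lemma ratUnitsToPadic_natUnit_self :
    ratUnitsToPadic p (natUnit p hp.out.ne_zero) = (pUnit : ℚ_[p]ˣ) := by
  apply Units.ext
  simp [pUnit]

/-- `ρ_p(p) = 1`. -/
lemma rhoRat_self_natUnit_self (m : ℕ) (q : Nat.Primes) (hqp : (q : ℕ) = p) :
    rhoRat (p := p) m q (natUnit p hp.out.ne_zero) = 1 := by
  rw [rhoRat_of_eq m q hqp, ratUnitsToPadic_natUnit_self, fakeSymbol_pUnit]

/-- `ρ_l(l) = ⟨l⟩` for a prime `l ≠ p`. -/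
lemma rhoRat_natUnit_self (m : ℕ) (q : Nat.Primes) (hqp : (q : ℕ) ≠ p) :
    rhoRat (p := p) m q (natUnit q q.2.ne_zero) =
      angle (p := p) m q ((Nat.coprime_primes q.2 hp.out).2 hqp) := by
  haveI : Fact (q : ℕ).Prime := ⟨q.2⟩
  rw [rhoRat_of_ne m q hqp]
  have h1 : padicValRat q ((natUnit (q : ℕ) q.2.ne_zero : ℚˣ) : ℚ) = 1 := by
    rw [coe_natUnit, padicValRat.of_nat, padicValNat_self]; rfl
  simp only [h1, zpow_one]

/-- The global symbol is trivial on `p`. -/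
lemma rhoGlobal_natUnit_self (m : ℕ) : rhoGlobal (p := p) m (natUnit p hp.out.ne_zero) = 1 := by
  rw [rhoGlobal_apply]
  apply finprod_eq_one_of_forall_eq_one
  intro q
  by_cases hqp : (q : ℕ) = p
  · exact rhoRat_self_natUnit_self m q hqp
  · apply rhoRat_natUnit_of_not_dvd m q hqp
    intro hd
    exact hqp ((Nat.prime_dvd_prime_iff_eq q.2 hp.out).1 hd)

/-- The global symbol is trivial on every prime `l ≠ p`: `⟨l⟩ · ⟨l⟩⁻¹ = 1`. -/
lemma rhoGlobal_natUnit_prime (m : ℕ) (l : Nat.Primes) (hlp : (l : ℕ) ≠ p) :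
    rhoGlobal (p := p) m (natUnit l l.2.ne_zero) = 1 := by
  rw [rhoGlobal_apply]
  set P : Nat.Primes := ⟨p, hp.out⟩ with hP
  have hlP : l ≠ P := fun h => hlp (congrArg Subtype.val h)
  have hsub : mulSupport (fun q : Nat.Primes => rhoRat (p := p) m q (natUnit l l.2.ne_zero)) ⊆
      (({l, P} : Finset Nat.Primes) : Set Nat.Primes) := by
    intro q hq
    simp only [Finset.coe_insert, Finset.coe_singleton, Set.mem_insert_iff, Set.mem_singleton_iff]
    by_contra hcon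
    simp only [not_or] at hcon
    apply hq
    have hqp : (q : ℕ) ≠ p := fun h => hcon.2 (Subtype.ext h)
    apply rhoRat_natUnit_of_not_dvd m q hqp
    intro hd
    exact hcon.1 (Subtype.ext ((Nat.prime_dvd_prime_iff_eq q.2 l.2).1 hd))
  rw [finprod_eq_prod_of_mulSupport_subset _ hsub, Finset.prod_pair hlP,
    rhoRat_natUnit_self m l hlp,
    rhoRat_self_natUnit m P rfl l l.2.ne_zero ((Nat.coprime_primes l.2 hp.out).2 hlp),
    mul_inv_cancel]

/-- The global symbol is trivial on all positive integers. -/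
theorem rhoGlobal_natUnit (m : ℕ) (n : ℕ) (hn : n ≠ 0) :
    rhoGlobal (p := p) m (natUnit n hn) = 1 := by
  induction n using Nat.recOnMul with
  | zero => exact absurd rfl hn
  | one => rw [natUnit_one, map_one]
  | prime l hl =>
    by_cases hlp : l = p
    · subst hlp
      exact rhoGlobal_natUnit_self m
    · exact rhoGlobal_natUnit_prime m ⟨l, hl⟩ hlp
  | mul a b iha ihb =>
    have ha : a ≠ 0 := fun h => hn (by rw [h, zero_mul])
    have hb : b ≠ 0 := fun h => hn (by rw [h, mul_zero])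
    rw [natUnit_mul a b ha hb, map_mul, iha ha, ihb hb, one_mul]

/-- **(R1) for positive rationals** (any prime `p`). -/
theorem rhoGlobal_eq_one_of_pos (m : ℕ) (b : ℚˣ) (hb : 0 < (b : ℚ)) :
    rhoGlobal (p := p) m b = 1 := by
  have hnum : 0 < (b : ℚ).num := Rat.num_pos.2 hb
  have hna : (b : ℚ).num.natAbs ≠ 0 := Int.natAbs_ne_zero.2 hnum.ne'
  have hden : (b : ℚ).den ≠ 0 := (b : ℚ).den_nz
  have key : b * natUnit (b : ℚ).den hden = natUnit (b : ℚ).num.natAbs hna := by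
    apply Units.ext
    rw [Units.val_mul, coe_natUnit, coe_natUnit, Rat.mul_den_eq_num]
    have h1 : ((b : ℚ).num.natAbs : ℤ) = (b : ℚ).num := Int.natAbs_of_nonneg hnum.le
    have h2 : (((b : ℚ).num : ℤ) : ℚ) = ((((b : ℚ).num.natAbs : ℕ) : ℤ) : ℚ) := by rw [h1]
    rw [h2, Int.cast_natCast]
  have h := congrArg (rhoGlobal (p := p) m) key
  rw [map_mul, rhoGlobal_natUnit, rhoGlobal_natUnit, mul_one] at h
  exact h

lemma ratUnitsToPadic_neg_one (q : ℕ) [Fact q.Prime] : ratUnitsToPadic q (-1) = -1 := by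
  apply Units.ext
  simp

lemma fakeSymbol_neg_one (hp2 : p ≠ 2) (m : ℕ) : fakeSymbol (p := p) m (-1) = 1 := by
  rw [fakeSymbol_apply, inv_eq_one]
  set y := unitClass (p := p) m (unitPart (-1)) with hy
  have hy2 : y ^ 2 = 1 := by
    rw [hy, ← map_pow, ← map_pow]; simp
  obtain ⟨k, hk⟩ : Even (p - 1) := hp.out.even_sub_one hp2
  rw [hk, ← two_mul, pow_mul, hy2, one_pow]

/-- The global symbol is trivial on `-1` (`p` odd). -/
lemma rhoGlobal_neg_one (hp2 : p ≠ 2) (m : ℕ) : rhoGlobal (p := p) m (-1) = 1 := by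
  rw [rhoGlobal_apply]
  apply finprod_eq_one_of_forall_eq_one
  intro q
  haveI : Fact (q : ℕ).Prime := ⟨q.2⟩
  by_cases hqp : (q : ℕ) = p
  · rw [rhoRat_of_eq m q hqp, ratUnitsToPadic_neg_one]
    exact fakeSymbol_neg_one hp2 m
  · rw [rhoRat_of_ne m q hqp]
    have h0 : padicValRat q (((-1 : ℚˣ)) : ℚ) = 0 := by
      rw [Units.val_neg, Units.val_one, padicValRat.neg, padicValRat.one]
    simp only [h0, zpow_zero]

/-- **(R1), the product formula**: `∏_q ρ_q(b) = 1` for every `b ∈ ℚˣ` (`p` odd). -/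
theorem rhoGlobal_eq_one (hp2 : p ≠ 2) (m : ℕ) (b : ℚˣ) : rhoGlobal (p := p) m b = 1 := by
  rcases lt_or_gt_of_ne (b.ne_zero) with hneg | hpos
  · have hpos : 0 < (((-1 : ℚˣ) * b : ℚˣ) : ℚ) := by
      rw [Units.val_mul, Units.val_neg, Units.val_one]; linarith
    have h := rhoGlobal_eq_one_of_pos (p := p) m _ hpos
    rw [map_mul, rhoGlobal_neg_one hp2, one_mul] at h
    exact h
  · exact rhoGlobal_eq_one_of_pos m b hpos

/-- (R1) as a `finprod`. -/
theorem finprod_rhoRat_eq_one (hp2 : p ≠ 2) (m : ℕ) (b : ℚˣ) :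
    ∏ᶠ q : Nat.Primes, rhoRat (p := p) m q b = 1 :=
  rhoGlobal_eq_one hp2 m b

/-- (R1), finite-set form: any finite set of primes containing `p` and the primes in the
support of `b`. -/
theorem prod_rhoRat_eq_one (hp2 : p ≠ 2) (m : ℕ) (b : ℚˣ) (T : Finset Nat.Primes)
    (hT : ∀ q : Nat.Primes, ((q : ℕ) = p ∨ padicValRat q (b : ℚ) ≠ 0) → q ∈ T) :
    ∏ q ∈ T, rhoRat (p := p) m q b = 1 := by
  have hsub : mulSupport (fun q : Nat.Primes => rhoRat (p := p) m q b) ⊆ (T : Set Nat.Primes) :=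
    fun q hq => hT q (mulSupport_rhoRat_subset m b hq)
  rw [← finprod_eq_prod_of_mulSupport_subset _ hsub]
  exact finprod_rhoRat_eq_one hp2 m b

/-- `Γ_m` has order `p^m` (`p` odd). -/
theorem card_Gamma (hp2 : p ≠ 2) (m : ℕ) : Nat.card (Gamma p m) = p ^ m := by
  have h := index_ker_fakeSymbol (p := p) hp2 m
  rw [Subgroup.index_ker, range_fakeSymbol] at h
  exact h

/-- `Γ_m` is cyclic (`p` odd). -/
theorem isCyclic_Gamma (hp2 : p ≠ 2) (m : ℕ) : IsCyclic (Gamma p m) := by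
  haveI : IsCyclic (ZMod (p ^ (m + 1)))ˣ := ZMod.isCyclic_units_of_prime_pow p hp.out hp2 _
  exact Subgroup.isCyclic _

end Fermat.Agent.S55.CycloRecip90
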