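/-
S55 / 34-E (helper90): the bracket `[·]_m : ℤ_[p]ˣ →* Γ_m` (onto, kernel = `p^m`-th powers), the
product formula in the form `∏_{q ≠ p} ⟨q⟩^(v_q b) = [b p^(-v_p b)]_m`, and the factorisation of
an arbitrary `Γ_m`-valued homomorphism of `ℚ_[p]ˣ` killing `p` through the explicit symbol `ρ_p`.
Mathlib only.
-/
import Fermat.Agent.S55.CycloRecip90.ProductFormula

set_option autoImplicit false

namespace Fermat.Agent.S55.CycloRecip90

open Function

variable {p : ℕ} [hp : Fact p.Prime]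

/-- `[·]_m : ℤ_[p]ˣ →* Γ_m`, `u ↦ (u mod p^(m+1))^(p-1)`. -/
noncomputable def bracket (m : ℕ) : ℤ_[p]ˣ →* Gamma p m :=
  ((powMonoidHom (p - 1)).comp (unitClass (p := p) m)).codRestrict (Gamma p m) (fun _ => ⟨_, rfl⟩)

@[simp] lemma coe_bracket (m : ℕ) (u : ℤ_[p]ˣ) :
    ((bracket (p := p) m u : Gamma p m) : (ZMod (p ^ (m + 1)))ˣ) = (unitClass m u) ^ (p - 1) := rfl

lemma bracket_surjective (m : ℕ) : Surjective (bracket (p := p) m) := by
  rintro ⟨g, y, rfl⟩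
  obtain ⟨u, rfl⟩ := unitClass_surjective (p := p) m y
  exact ⟨u, Subtype.ext rfl⟩

/-- `ρ_p(x) = ([unitPart x]_m)⁻¹`. -/
lemma fakeSymbol_eq_bracket_inv (m : ℕ) (x : ℚ_[p]ˣ) :
    fakeSymbol (p := p) m x = (((bracket m (unitPart x))⁻¹ : Gamma p m) : (ZMod (p ^ (m + 1)))ˣ) := by
  rw [fakeSymbol_apply]; rfl

lemma card_units_zmod_prime_pow (m : ℕ) :
    Nat.card (ZMod (p ^ (m + 1)))ˣ = p ^ m * (p - 1) := by
  haveI : NeZero (p ^ (m + 1)) := ⟨pow_ne_zero _ hp.out.ne_zero⟩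
  rw [Nat.card_eq_fintype_card, ZMod.card_units_eq_totient,
    Nat.totient_prime_pow hp.out (Nat.succ_pos m)]
  simp

/-- Every element of `Γ_m` is killed by `p^m`. -/
lemma pow_eq_one_of_mem_Gamma (m : ℕ) {g : (ZMod (p ^ (m + 1)))ˣ} (hg : g ∈ Gamma p m) :
    g ^ p ^ m = 1 := by
  obtain ⟨y, rfl⟩ := hg
  rw [powMonoidHom_apply, ← pow_mul, mul_comm, ← card_units_zmod_prime_pow]
  exact pow_card_eq_one'

/-- The kernel of `[·]_m` is the group of `p^m`-th powers (`p` odd). -/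
theorem ker_bracket (hp2 : p ≠ 2) (m : ℕ) :
    (bracket (p := p) m).ker = (powMonoidHom (p ^ m) : ℤ_[p]ˣ →* ℤ_[p]ˣ).range := by
  ext u
  constructor
  · intro hu
    rw [MonoidHom.mem_ker] at hu
    have h1 : (unitClass (p := p) m u) ^ (p - 1) = 1 := by
      have := congrArg Subtype.val hu
      simpa using this
    have h2 : (PadicInt.toZModPow (m + 1) (u : ℤ_[p])) ^ (p - 1) = 1 := by
      have := congrArg Units.val h1
      simpa [unitClass] using this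
    obtain ⟨z, hz⟩ := exists_pow_prime_pow_eq hp2 m u.isUnit h2
    have hzu : IsUnit z := by
      have : IsUnit (z ^ p ^ m) := by rw [hz]; exact u.isUnit
      exact (isUnit_pow_iff (pow_pos hp.out.pos m).ne').1 this
    refine ⟨hzu.unit, ?_⟩
    apply Units.ext
    rw [powMonoidHom_apply, Units.val_pow_eq_pow_val, IsUnit.unit_spec, hz]
  · rintro ⟨z, rfl⟩
    rw [MonoidHom.mem_ker, powMonoidHom_apply, map_pow]
    apply Subtype.ext
    rw [SubmonoidClass.coe_pow]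
    exact pow_eq_one_of_mem_Gamma m (bracket m z).2

/-- **(R1), tame-vs-wild form**: `∏_{q ≠ p} ρ_q(b) = [b p^(-v_p b)]^(p-1)`. -/
theorem finprod_ne_rhoRat_eq (hp2 : p ≠ 2) (m : ℕ) (b : ℚˣ) :
    ∏ᶠ (q : Nat.Primes) (_ : q ≠ (⟨p, hp.out⟩ : Nat.Primes)), rhoRat (p := p) m q b =
      (unitClass (p := p) m (unitPart (ratUnitsToPadic p b))) ^ (p - 1) := by
  have h := mul_finprod_cond_ne (f := fun q : Nat.Primes => rhoRat (p := p) m q b)
    (⟨p, hp.out⟩ : Nat.Primes) (finite_mulSupport_rhoRat (p := p) m b)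
  have h1 : rhoRat (p := p) m (⟨p, hp.out⟩ : Nat.Primes) b *
      ∏ᶠ (q : Nat.Primes) (_ : q ≠ (⟨p, hp.out⟩ : Nat.Primes)), rhoRat (p := p) m q b = 1 :=
    h.trans (finprod_rhoRat_eq_one hp2 m b)
  have h2 : rhoRat (p := p) m (⟨p, hp.out⟩ : Nat.Primes) b =
      fakeSymbol (p := p) m (ratUnitsToPadic p b) :=
    rhoRat_of_eq m (⟨p, hp.out⟩ : Nat.Primes) rfl b
  rw [h2, fakeSymbol_apply] at h1
  exact (inv_mul_eq_one.1 h1).symm

/-- The same with the condition written on the underlying natural numbers. -/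
theorem finprod_ne_rhoRat_eq' (hp2 : p ≠ 2) (m : ℕ) (b : ℚˣ) :
    ∏ᶠ (q : Nat.Primes) (_ : (q : ℕ) ≠ p), rhoRat (p := p) m q b =
      (unitClass (p := p) m (unitPart (ratUnitsToPadic p b))) ^ (p - 1) := by
  rw [← finprod_ne_rhoRat_eq hp2 m b]
  apply finprod_congr
  intro q
  have hiff : ((q : ℕ) ≠ p) ↔ (q ≠ (⟨p, hp.out⟩ : Nat.Primes)) :=
    not_congr ⟨fun h => Subtype.ext h, fun h => congrArg Subtype.val h⟩
  exact finprod_congr_Prop (propext hiff) (fun _ => rfl)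

/-- **Factorisation through `ρ_p`**: a homomorphism `θ : ℚ_[p]ˣ → (ℤ/p^(m+1))ˣ` with values in `Γ_m`
which kills `p` is a power of the explicit symbol `ρ_p = fakeSymbol m` (`p` odd). -/
theorem exists_pow_eq_fakeSymbol (hp2 : p ≠ 2) (m : ℕ) (θ : ℚ_[p]ˣ →* (ZMod (p ^ (m + 1)))ˣ)
    (hθΓ : ∀ x, θ x ∈ Gamma p m) (hθp : θ pUnit = 1) :
    ∃ c : ℕ, ∀ x, θ x = (fakeSymbol (p := p) m x) ^ c := by
  haveI := isCyclic_Gamma (p := p) hp2 m
  obtain ⟨g, hg⟩ := IsCyclic.exists_generator (α := Gamma p m)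
  -- a preimage of the generator under `ρ_p`
  have hgr : (g : (ZMod (p ^ (m + 1)))ˣ) ∈ (fakeSymbol (p := p) m).range := by
    rw [range_fakeSymbol]; exact g.2
  obtain ⟨x₀, hx₀⟩ := hgr
  obtain ⟨c, hc⟩ : ∃ c : ℕ, θ x₀ = (g : (ZMod (p ^ (m + 1)))ˣ) ^ c := by
    have hmem : (⟨θ x₀, hθΓ x₀⟩ : Gamma p m) ∈ Subgroup.zpowers g := hg _
    haveI : Finite (Gamma p m) := Nat.finite_of_card_ne_zero (by
      rw [card_Gamma hp2 m]; exact (pow_pos hp.out.pos m).ne')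
    rw [← mem_powers_iff_mem_zpowers] at hmem
    obtain ⟨c, hc⟩ := hmem
    refine ⟨c, ?_⟩
    have := congrArg Subtype.val hc
    simpa using this.symm
  have hker : (fakeSymbol (p := p) m).ker ≤ θ.ker := by
    apply ker_fakeSymbol_le hp2 m θ.ker
    · exact hθp
    · intro x
      rw [MonoidHom.mem_ker, map_pow]
      exact pow_eq_one_of_mem_Gamma m (hθΓ x)
  refine ⟨c, fun x => ?_⟩
  have hxr : (⟨fakeSymbol (p := p) m x, fakeSymbol_mem_Gamma m x⟩ : Gamma p m) ∈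
      Subgroup.zpowers g := hg _
  obtain ⟨k, hk⟩ := hxr
  have hk' : fakeSymbol (p := p) m x = (g : (ZMod (p ^ (m + 1)))ˣ) ^ k := by
    have := congrArg Subtype.val hk
    simpa using this.symm
  have hmemker : x * (x₀ ^ k)⁻¹ ∈ (fakeSymbol (p := p) m).ker := by
    rw [MonoidHom.mem_ker, map_mul, map_inv, map_zpow, hx₀, hk', mul_inv_cancel]
  have hθ := hker hmemker
  rw [MonoidHom.mem_ker, map_mul, map_inv, map_zpow, mul_inv_eq_one] at hθ
  rw [hθ, hc, hk', ← zpow_natCast, ← zpow_natCast, ← zpow_mul, ← zpow_mul, mul_comm]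

end Fermat.Agent.S55.CycloRecip90
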