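/-
S55 / 34-E (helper90): compatibility of the explicit symbols `ρ_q` with the reduction maps
`(ℤ/p^(n+1))ˣ → (ℤ/p^(m+1))ˣ` (`m ≤ n`), uniqueness of the exponent `c` in `θ = ρ_p^c`
modulo `p^m`, its compatibility along the tower and the criterion `p ∤ c`.  Mathlib only.
-/
import Fermat.Agent.S55.CycloRecip90.Bracket

set_option autoImplicit false

namespace Fermat.Agent.S55.CycloRecip90

open Function

variable {p : ℕ} [hp : Fact p.Prime]

/-- Reduction `(ℤ/p^(n+1))ˣ → (ℤ/p^(m+1))ˣ` for `m ≤ n`. -/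
def red (p : ℕ) {m n : ℕ} (h : m ≤ n) : (ZMod (p ^ (n + 1)))ˣ →* (ZMod (p ^ (m + 1)))ˣ :=
  ZMod.unitsMap (pow_dvd_pow p (Nat.succ_le_succ h))

lemma red_surjective {m n : ℕ} (h : m ≤ n) : Surjective (red p h) := by
  haveI : NeZero (p ^ (n + 1)) := ⟨pow_ne_zero _ hp.out.ne_zero⟩
  exact ZMod.unitsMap_surjective _

lemma red_unitClass {m n : ℕ} (h : m ≤ n) (u : ℤ_[p]ˣ) :
    red p h (unitClass (p := p) n u) = unitClass (p := p) m u := by
  apply Units.ext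
  have := PadicInt.cast_toZModPow (p := p) (m + 1) (n + 1) (Nat.succ_le_succ h) (u : ℤ_[p])
  simpa [red, unitClass, ZMod.unitsMap_def] using this

lemma red_fakeSymbol {m n : ℕ} (h : m ≤ n) (x : ℚ_[p]ˣ) :
    red p h (fakeSymbol (p := p) n x) = fakeSymbol (p := p) m x := by
  rw [fakeSymbol_apply, fakeSymbol_apply, map_inv, map_pow, red_unitClass]

lemma red_unitOfCoprime {m n : ℕ} (h : m ≤ n) (a : ℕ) (ha : a.Coprime p) :
    red p h (ZMod.unitOfCoprime a (Nat.Coprime.pow_right _ ha)) =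
      ZMod.unitOfCoprime a (Nat.Coprime.pow_right _ ha) := by
  apply Units.ext
  simp [red, ZMod.unitsMap_def]

lemma red_angle {m n : ℕ} (h : m ≤ n) (a : ℕ) (ha : a.Coprime p) :
    red p h (angle (p := p) n a ha) = angle (p := p) m a ha := by
  rw [angle, angle, map_pow, red_unitOfCoprime h a ha]

lemma red_frobSymbol {m n : ℕ} (h : m ≤ n) (l : ℕ) [hl : Fact l.Prime] (hlp : l ≠ p)
    (x : ℚ_[l]ˣ) :
    red p h (frobSymbol (p := p) n l hlp x) = frobSymbol (p := p) m l hlp x := by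
  rw [frobSymbol_apply, frobSymbol_apply, map_zpow, red_angle]

lemma red_rhoRat {m n : ℕ} (h : m ≤ n) (q : Nat.Primes) (b : ℚˣ) :
    red p h (rhoRat (p := p) n q b) = rhoRat (p := p) m q b := by
  by_cases hq : (q : ℕ) = p
  · rw [rhoRat_of_eq n q hq, rhoRat_of_eq m q hq, red_fakeSymbol]
  · rw [rhoRat_of_ne n q hq, rhoRat_of_ne m q hq, map_zpow, red_angle]

lemma red_mem_Gamma {m n : ℕ} (h : m ≤ n) {g : (ZMod (p ^ (n + 1)))ˣ} (hg : g ∈ Gamma p n) :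
    red p h g ∈ Gamma p m := by
  obtain ⟨y, rfl⟩ := hg
  exact ⟨red p h y, by simp [powMonoidHom_apply, map_pow]⟩

/-- `Γ_n` maps onto `Γ_m`. -/
lemma map_red_Gamma {m n : ℕ} (h : m ≤ n) : (Gamma p n).map (red p h) = Gamma p m := by
  ext g
  constructor
  · rintro ⟨g', hg', rfl⟩
    exact red_mem_Gamma h hg'
  · rintro ⟨y, rfl⟩
    obtain ⟨y', rfl⟩ := red_surjective (p := p) h y
    exact ⟨y' ^ (p - 1), ⟨y', rfl⟩, by simp [powMonoidHom_apply, map_pow]⟩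

/-- There is `x₀ ∈ ℚ_[p]ˣ` such that `ρ_p(x₀)` has order exactly `p^m` (`p` odd). -/
lemma exists_orderOf_fakeSymbol (hp2 : p ≠ 2) (m : ℕ) :
    ∃ x₀ : ℚ_[p]ˣ, orderOf (fakeSymbol (p := p) m x₀) = p ^ m := by
  haveI := isCyclic_Gamma (p := p) hp2 m
  obtain ⟨g, hg⟩ := IsCyclic.exists_generator (α := Gamma p m)
  have hgr : (g : (ZMod (p ^ (m + 1)))ˣ) ∈ (fakeSymbol (p := p) m).range := by
    rw [range_fakeSymbol]; exact g.2
  obtain ⟨x₀, hx₀⟩ := hgr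
  refine ⟨x₀, ?_⟩
  rw [hx₀, Subgroup.orderOf_coe, orderOf_eq_card_of_forall_mem_zpowers hg, card_Gamma hp2 m]

/-- **Uniqueness of the exponent**: `ρ_p^c = ρ_p^c'` iff `c ≡ c' mod p^m` (`p` odd). -/
theorem pow_fakeSymbol_eq_iff (hp2 : p ≠ 2) (m : ℕ) (c c' : ℕ) :
    (∀ x : ℚ_[p]ˣ, (fakeSymbol (p := p) m x) ^ c = (fakeSymbol (p := p) m x) ^ c') ↔
      c ≡ c' [MOD p ^ m] := by
  constructor
  · intro hcc
    obtain ⟨x₀, hx₀⟩ := exists_orderOf_fakeSymbol (p := p) hp2 m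
    have := pow_eq_pow_iff_modEq.1 (hcc x₀)
    rwa [hx₀] at this
  · intro hmod x
    apply pow_eq_pow_iff_modEq.2
    apply Nat.ModEq.of_dvd _ hmod
    apply orderOf_dvd_of_pow_eq_one
    exact pow_eq_one_of_mem_Gamma m (fakeSymbol_mem_Gamma m x)

/-- **Tower compatibility of the exponent**: if `θ_n = ρ_p^(c_n)` at level `n`, `θ_m = ρ_p^(c_m)`
at level `m ≤ n` and `θ_m = red ∘ θ_n`, then `c_n ≡ c_m mod p^m`. -/
theorem exponent_compat (hp2 : p ≠ 2) {m n : ℕ} (h : m ≤ n)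
    (θn : ℚ_[p]ˣ →* (ZMod (p ^ (n + 1)))ˣ) (θm : ℚ_[p]ˣ →* (ZMod (p ^ (m + 1)))ˣ)
    (hred : ∀ x, red p h (θn x) = θm x) (cn cm : ℕ)
    (hn : ∀ x, θn x = (fakeSymbol (p := p) n x) ^ cn)
    (hm : ∀ x, θm x = (fakeSymbol (p := p) m x) ^ cm) : cn ≡ cm [MOD p ^ m] := by
  apply (pow_fakeSymbol_eq_iff hp2 m cn cm).1
  intro x
  rw [← hm x, ← hred x, hn x, map_pow, red_fakeSymbol]

/-- **The exponent is a `p`-adic unit**: if `θ = ρ_p^c` has kernel of index `p^m`, `m ≥ 1`, then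
`p ∤ c`. -/
theorem coprime_of_index_ker (hp2 : p ≠ 2) {m : ℕ} (hm : 1 ≤ m)
    (θ : ℚ_[p]ˣ →* (ZMod (p ^ (m + 1)))ˣ) (c : ℕ)
    (hc : ∀ x, θ x = (fakeSymbol (p := p) m x) ^ c) (hidx : θ.ker.index = p ^ m) :
    Nat.Coprime c p := by
  rw [Nat.coprime_comm, Nat.Prime.coprime_iff_not_dvd hp.out]
  intro hpc
  obtain ⟨d, rfl⟩ := hpc
  -- every value of `θ` is killed by `p^(m-1)`
  have hkill : ∀ x, θ x ^ p ^ (m - 1) = 1 := by
    intro x
    rw [hc x, ← pow_mul, mul_comm p d, mul_assoc, ← pow_succ', Nat.sub_add_cancel hm, mul_comm,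
      pow_mul]
    rw [pow_eq_one_of_mem_Gamma m (fakeSymbol_mem_Gamma m x), one_pow]
  -- hence the range of `θ` is a cyclic group of exponent dividing `p^(m-1)`
  have hrange : θ.range ≤ Gamma p m := by
    rintro _ ⟨x, rfl⟩
    rw [hc x]
    exact Subgroup.pow_mem _ (fakeSymbol_mem_Gamma m x) _
  haveI hcycΓ := isCyclic_Gamma (p := p) hp2 m
  haveI : IsCyclic (ZMod (p ^ (m + 1)))ˣ := ZMod.isCyclic_units_of_prime_pow p hp.out hp2 _
  haveI : IsCyclic θ.range := Subgroup.isCyclic _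
  haveI : NeZero (p ^ (m + 1)) := ⟨pow_ne_zero _ hp.out.ne_zero⟩
  have hcard : Nat.card θ.range = p ^ m := by rw [← Subgroup.index_ker, hidx]
  obtain ⟨g, hg⟩ := IsCyclic.exists_generator (α := θ.range)
  have hord : orderOf g = p ^ m := by
    rw [orderOf_eq_card_of_forall_mem_zpowers hg, hcard]
  have hg1 : g ^ p ^ (m - 1) = 1 := by
    obtain ⟨x, hx⟩ := g.2
    apply Subtype.ext
    rw [SubmonoidClass.coe_pow, ← hx]
    exact hkill x
  have hdvd := orderOf_dvd_of_pow_eq_one hg1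
  rw [hord] at hdvd
  have hlt : p ^ (m - 1) < p ^ m := Nat.pow_lt_pow_right hp.out.one_lt (by omega)
  exact absurd (Nat.le_of_dvd (pow_pos hp.out.pos _) hdvd) (not_le.2 hlt)

end Fermat.Agent.S55.CycloRecip90
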