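/-
S55 / 34-I-ABS (helper90): step (I) of the sum formula over `ℚ` as one abstract theorem.
Given tame symbols with the unramified formula `λ_q(b) = dlog ⟨q⟩ · v_q(b)` (`q ≠ p`) and a
tower-compatible symbol `λ_p` on `ℚ_[p]ˣ` killing `p` and non-trivial on the first layer, there
is a compatible family of units `ε_n ∈ (ℤ/pⁿ)ˣ` with
`∑_{q ≠ p} λ_q(b) + ε_n · λ_p(b) = 0` for all `b ∈ ℚˣ`.
Mathlib + CycloRecip90 + CycloRecip37/ThetaUnit only.
-/
import Fermat.Agent.S55.CycloRecip90.Compat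
import Fermat.Agent.S55.CycloRecip37.ThetaUnit

set_option autoImplicit false

namespace Fermat.Agent.S55.CycloRecip90

open Function Multiplicative

open Fermat.Agent.S55.CycloRecip37 (ThetaUnit.red ThetaUnit.exists_eps_family)

variable {p : ℕ} [hp : Fact p.Prime]

/-- The inclusion `ℤ_[p]ˣ →* ℚ_[p]ˣ`. -/
noncomputable def unitsToPadic (p : ℕ) [Fact p.Prime] : ℤ_[p]ˣ →* ℚ_[p]ˣ :=
  Units.map (PadicInt.Coe.ringHom (p := p)).toMonoidHom

lemma unitPart_unitsToPadic (u : ℤ_[p]ˣ) : unitPart (unitsToPadic p u) = u :=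
  unitPart_coe_unit u

/-- `x = unitPart x · p^v(x)` in `ℚ_[p]ˣ`. -/
lemma eq_unitsToPadic_mul_zpow (x : ℚ_[p]ˣ) :
    x = unitsToPadic p (unitPart x) * pUnit ^ ((x : ℚ_[p]).valuation) := by
  apply Units.ext
  rw [Units.val_mul, Units.val_zpow_eq_zpow_val]
  conv_lhs => rw [eq_unitPart_mul x]
  rfl

/-- A homomorphism killing `p` only sees the unit part. -/
lemma apply_eq_apply_unitPart {A : Type*} [CommGroup A] (θ : ℚ_[p]ˣ →* A) (hθ : θ pUnit = 1)
    (x : ℚ_[p]ˣ) : θ x = θ (unitsToPadic p (unitPart x)) := by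
  conv_lhs => rw [eq_unitsToPadic_mul_zpow x]
  rw [map_mul, map_zpow, hθ, one_zpow, mul_one]

lemma red_bracket {m n : ℕ} (h : m ≤ n) (u : ℤ_[p]ˣ) :
    red p h ((bracket (p := p) n u : Gamma p n) : (ZMod (p ^ (n + 1)))ˣ) =
      ((bracket (p := p) m u : Gamma p m) : (ZMod (p ^ (m + 1)))ˣ) := by
  rw [coe_bracket, coe_bracket, map_pow, red_unitClass]

/-- Every element of `Multiplicative (ZMod N)` is killed by `N`. -/
lemma pow_eq_one_multiplicative_zmod (N : ℕ) (x : Multiplicative (ZMod N)) : x ^ N = 1 := by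
  apply toAdd.injective
  rw [toAdd_pow, toAdd_one, nsmul_eq_mul, ZMod.natCast_self, zero_mul]

section stepI

variable (hp2 : p ≠ 2)
  (d : ∀ m : ℕ, Gamma p m ≃* Multiplicative (ZMod (p ^ m)))
  (hd : ∀ m (g : Gamma p (m + 1)), ThetaUnit.red p m (toAdd (d (m + 1) g)) =
      toAdd (d m ⟨red p (Nat.le_succ m) g, red_mem_Gamma _ g.2⟩))
  (lamT : Nat.Primes → ∀ n : ℕ, ℚˣ →* Multiplicative (ZMod (p ^ n)))
  (lamP : ∀ n : ℕ, ℚ_[p]ˣ →* Multiplicative (ZMod (p ^ n)))
  (H1 : ∀ (q : Nat.Primes) (n : ℕ) (hq : (q : ℕ) ≠ p) (b : ℚˣ),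
      lamT q n b = (d n ⟨angle (p := p) n q ((Nat.coprime_primes q.2 hp.out).2 hq),
        angle_mem_Gamma _ _ _⟩) ^ (padicValRat q (b : ℚ)))
  (H2 : ∀ n, lamP n pUnit = 1)
  (H3 : ∀ n x, ThetaUnit.red p n (toAdd (lamP (n + 1) x)) = toAdd (lamP n x))
  (H4 : ∃ x, lamP 1 x ≠ 1)

include H1 in
/-- (H1) in terms of `rhoRat`. -/
lemma lamT_eq_rhoRat (q : Nat.Primes) (n : ℕ) (hq : (q : ℕ) ≠ p) (b : ℚˣ) :
    lamT q n b = d n ⟨rhoRat (p := p) n q b, rhoRat_mem_Gamma n q b⟩ := by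
  rw [H1 q n hq b, ← map_zpow]
  congr 1
  apply Subtype.ext
  rw [SubgroupClass.coe_zpow]
  exact (rhoRat_of_ne n q hq b).symm

include hp2 H1 in
/-- The tame part of the sum is `dlog [b p^(-v_p b)]`, finite-set form. -/
lemma sum_lamT_eq (n : ℕ) (b : ℚˣ) (T : Finset Nat.Primes) (hTp : ∀ q ∈ T, (q : ℕ) ≠ p)
    (hT : ∀ q : Nat.Primes, (q : ℕ) ≠ p → padicValRat q (b : ℚ) ≠ 0 → q ∈ T) :
    ∑ q ∈ T, toAdd (lamT q n b) =
      toAdd (d n (bracket (p := p) n (unitPart (ratUnitsToPadic p b)))) := by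
  have h1 : ∑ q ∈ T, toAdd (lamT q n b) =
      toAdd (d n (∏ q ∈ T, (⟨rhoRat (p := p) n q b, rhoRat_mem_Gamma n q b⟩ : Gamma p n))) := by
    rw [map_prod, toAdd_prod]
    apply Finset.sum_congr rfl
    intro q hq
    rw [lamT_eq_rhoRat d lamT H1 q n (hTp q hq) b]
  rw [h1]
  congr 2
  apply Subtype.ext
  rw [Subgroup.val_finsetProd, coe_bracket]
  -- the product formula
  set P : Nat.Primes := ⟨p, hp.out⟩ with hP
  have hPT : P ∉ T := fun h => hTp P h rfl
  have hall := prod_rhoRat_eq_one (p := p) hp2 n b (insert P T) (by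
    intro q hq
    rcases hq with hq | hq
    · exact Finset.mem_insert.2 (Or.inl (Subtype.ext hq))
    · by_cases hqp : (q : ℕ) = p
      · exact Finset.mem_insert.2 (Or.inl (Subtype.ext hqp))
      · exact Finset.mem_insert.2 (Or.inr (hT q hqp hq)))
  rw [Finset.prod_insert hPT, rhoRat_of_eq n P rfl, fakeSymbol_apply] at hall
  exact (inv_mul_eq_one.1 hall).symm

include hp2 hd H1 H2 H3 H4 in
/-- **Step (I), finite-set form.** -/
theorem stepI_finset :
    ∃ eps : ∀ n, (ZMod (p ^ n))ˣ,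
      (∀ n, ThetaUnit.red p n (eps (n + 1) : ZMod (p ^ (n + 1))) = eps n) ∧
      ∀ (n : ℕ) (b : ℚˣ) (T : Finset Nat.Primes), (∀ q ∈ T, (q : ℕ) ≠ p) →
        (∀ q : Nat.Primes, (q : ℕ) ≠ p → padicValRat q (b : ℚ) ≠ 0 → q ∈ T) →
        ∑ q ∈ T, toAdd (lamT q n b) +
          (eps n : ZMod (p ^ n)) * toAdd (lamP n (ratUnitsToPadic p b)) = 0 := by
  -- the two families on `U = ℤ_[p]ˣ`
  set kap : ∀ n : ℕ, ℤ_[p]ˣ →* Multiplicative (ZMod (p ^ n)) :=
    fun n => (d n).toMonoidHom.comp (bracket (p := p) n) with hkapdef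
  set lam : ∀ n : ℕ, ℤ_[p]ˣ →* Multiplicative (ZMod (p ^ n)) :=
    fun n => (lamP n).comp (unitsToPadic p) with hlamdef
  have hsurj : ∀ n, Surjective (kap n) := fun n =>
    (d n).surjective.comp (bracket_surjective n)
  have hker : ∀ n u, kap n u = 1 → lam n u = 1 := by
    intro n u hu
    have hb : bracket (p := p) n u = 1 := by
      apply (d n).injective
      rw [map_one]; exact hu
    have hmem : u ∈ (bracket (p := p) n).ker := hb
    rw [ker_bracket hp2 n] at hmem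
    obtain ⟨z, rfl⟩ := hmem
    rw [powMonoidHom_apply, map_pow]
    exact pow_eq_one_multiplicative_zmod _ _
  have hkap : ∀ n u, ThetaUnit.red p n (toAdd (kap (n + 1) u)) = toAdd (kap n u) := by
    intro n u
    have := hd n (bracket (p := p) (n + 1) u)
    rw [hkapdef]
    simp only [MonoidHom.comp_apply, MulEquiv.toMonoidHom_eq_coe, MonoidHom.coe_coe]
    rw [this]
    congr 2
    apply Subtype.ext
    exact red_bracket (Nat.le_succ n) u
  have hlam : ∀ n u, ThetaUnit.red p n (toAdd (lam (n + 1) u)) = toAdd (lam n u) :=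
    fun n u => H3 n _
  have h1 : ∃ u, lam 1 u ≠ 1 := by
    obtain ⟨x, hx⟩ := H4
    refine ⟨unitPart x, ?_⟩
    rw [hlamdef]
    simp only [MonoidHom.comp_apply]
    rw [← apply_eq_apply_unitPart (lamP 1) (H2 1) x]
    exact hx
  obtain ⟨eps, heps, hsum⟩ := ThetaUnit.exists_eps_family kap lam hsurj hker hkap hlam h1
  refine ⟨eps, heps, fun n b T hTp hT => ?_⟩
  rw [sum_lamT_eq hp2 d lamT H1 n b T hTp hT,
    apply_eq_apply_unitPart (lamP n) (H2 n) (ratUnitsToPadic p b)]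
  exact hsum n (unitPart (ratUnitsToPadic p b))

include hp2 hd H1 H2 H3 H4 in
/-- **Step (I)** with the tame sum written as a `finsum` over all primes `q ≠ p`. -/
theorem stepI :
    ∃ eps : ∀ n, (ZMod (p ^ n))ˣ,
      (∀ n, ThetaUnit.red p n (eps (n + 1) : ZMod (p ^ (n + 1))) = eps n) ∧
      ∀ (n : ℕ) (b : ℚˣ),
        (∑ᶠ (q : Nat.Primes) (_ : (q : ℕ) ≠ p), toAdd (lamT q n b)) +
          (eps n : ZMod (p ^ n)) * toAdd (lamP n (ratUnitsToPadic p b)) = 0 := by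
  obtain ⟨eps, heps, hsum⟩ := stepI_finset hp2 d hd lamT lamP H1 H2 H3 H4
  refine ⟨eps, heps, fun n b => ?_⟩
  -- a finite set of primes `≠ p` containing the support of `b`
  classical
  set T : Finset Nat.Primes :=
    ((finite_primes_padicValRat_ne_zero b).toFinset).filter (fun q => (q : ℕ) ≠ p) with hTdef
  have hTp : ∀ q ∈ T, (q : ℕ) ≠ p := fun q hq => (Finset.mem_filter.1 hq).2
  have hT : ∀ q : Nat.Primes, (q : ℕ) ≠ p → padicValRat q (b : ℚ) ≠ 0 → q ∈ T := by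
    intro q hqp hq
    exact Finset.mem_filter.2 ⟨(Set.Finite.mem_toFinset _).2 hq, hqp⟩
  rw [← hsum n b T hTp hT]
  congr 1
  apply finsum_cond_eq_sum_of_cond_iff
  intro q hq
  constructor
  · intro hqp
    apply hT q hqp
    intro h0
    apply hq
    rw [H1 q n hqp b, h0, zpow_zero, toAdd_one]
  · intro hqT
    exact hTp q hqT

end stepI

end Fermat.Agent.S55.CycloRecip90
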