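/-
S55 / 34 (helper90): `stepI` instantiated at helper87's `CycloGlobal87.dlog` (the discrete
logarithm with respect to the class of `1 + p`, used by `CycloGlobal87.towerChar`).
-/
import Fermat.Agent.S55.CycloRecip90.StepI
import Fermat.Agent.S55.CycloGlobal87.Tower

set_option autoImplicit false

namespace Fermat.Agent.S55.CycloRecip90

open Function Multiplicative

open Fermat.Agent.S55.CycloRecip37 (ThetaUnit.red)

variable {p : ℕ} [hp : Fact p.Prime]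

/-- helper87's `val_dlog_red` in the `castHom` form `hd` of `stepI`. -/
theorem dlog87_compat (hp2 : p ≠ 2) (m : ℕ) (g : Gamma p (m + 1)) :
    ThetaUnit.red p m (toAdd (CycloGlobal87.dlog p hp2 (m + 1) g)) =
      toAdd (CycloGlobal87.dlog p hp2 m ⟨red p (Nat.le_succ m) g, red_mem_Gamma _ g.2⟩) := by
  haveI : NeZero (p ^ m) := ⟨pow_ne_zero _ hp.out.ne_zero⟩
  haveI : NeZero (p ^ (m + 1)) := ⟨pow_ne_zero _ hp.out.ne_zero⟩
  apply ZMod.val_injective
  rw [CycloGlobal87.val_dlog_red p hp2 (Nat.le_succ m) g, ZMod.castHom_apply,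
    ← ZMod.natCast_val, ZMod.val_natCast]

/-- **`stepI` with helper87's `dlog`** (so that `(H1)` is the unramified formula for
`CycloGlobal87.towerChar`: `towerChar (Frob_q) = dlog ⟨q⟩`). -/
theorem stepI_dlog87 (hp2 : p ≠ 2)
    (lamT : Nat.Primes → ∀ n : ℕ, ℚˣ →* Multiplicative (ZMod (p ^ n)))
    (lamP : ∀ n : ℕ, ℚ_[p]ˣ →* Multiplicative (ZMod (p ^ n)))
    (H1 : ∀ (q : Nat.Primes) (n : ℕ) (hq : (q : ℕ) ≠ p) (b : ℚˣ),
      lamT q n b = (CycloGlobal87.dlog p hp2 n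
        ⟨angle (p := p) n q ((Nat.coprime_primes q.2 hp.out).2 hq),
          angle_mem_Gamma _ _ _⟩) ^ (padicValRat q (b : ℚ)))
    (H2 : ∀ n, lamP n pUnit = 1)
    (H3 : ∀ n x, ThetaUnit.red p n (toAdd (lamP (n + 1) x)) = toAdd (lamP n x))
    (H4 : ∃ x, lamP 1 x ≠ 1) :
    ∃ eps : ∀ n, (ZMod (p ^ n))ˣ,
      (∀ n, ThetaUnit.red p n (eps (n + 1) : ZMod (p ^ (n + 1))) = eps n) ∧
      ∀ (n : ℕ) (b : ℚˣ),
        (∑ᶠ (q : Nat.Primes) (_ : (q : ℕ) ≠ p), toAdd (lamT q n b)) +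
          (eps n : ZMod (p ^ n)) * toAdd (lamP n (ratUnitsToPadic p b)) = 0 :=
  stepI hp2 (CycloGlobal87.dlog p hp2) (dlog87_compat hp2) lamT lamP H1 H2 H3 H4

end Fermat.Agent.S55.CycloRecip90
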