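/-
S55 / 34-I-QZ (helper90): step (I) of the sum formula over `ℚ` in the `ℚ/ℤ`-valued shape
(`T := QZ33.QZ = AddCircle (1 : ℚ)`) produced by the local invariants of 22b:
tame terms `μT q n b = c_q.val * v_q(b) / p^n`, a wild term `μP n : ℚ_[p]ˣ → ℚ/ℤ` killed by `p^n`,
killing `p`, compatible (`p • μP (n+1) = μP n`) and non-trivial on the first layer.
-/
import Fermat.Agent.S55.CycloRecip90.StepI87
import Fermat.Agent.S55.QZ33

set_option autoImplicit false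

namespace Fermat.Agent.S55.CycloRecip90

open Function Multiplicative

open Fermat.Agent.S55.CycloRecip37 (ThetaUnit.red)
open Fermat.Agent.S55.QZ33

variable {p : ℕ} [hp : Fact p.Prime]

/-- `θ` of an element written as a fraction. -/
lemma theta_eq_of_eq_frac {n : ℕ} (hn : n ≠ 0) (t : ↥(QZ.tors n)) (a : ℤ)
    (h : (t : QZ) = QZ.frac a n) : QZ.theta hn t = (a : ZMod n) := by
  apply QZ.jT_injective hn
  rw [QZ.jT_theta, QZ.jT_intCast, h]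

/-- Compatibility of `θ` with multiplication by `p`: `θ_n(p • t) = θ_{n+1}(t) mod p^n`. -/
lemma red_theta (n : ℕ) (t : QZ) (ht : (p ^ (n + 1)) • t = 0) (ht' : (p ^ n) • (p • t) = 0) :
    ThetaUnit.red p n (QZ.theta (pow_ne_zero (n + 1) hp.out.ne_zero) ⟨t, ht⟩) =
      QZ.theta (pow_ne_zero n hp.out.ne_zero) ⟨p • t, ht'⟩ := by
  obtain ⟨a, ha⟩ := (QZ.nsmul_eq_zero_iff (pow_ne_zero (n + 1) hp.out.ne_zero) t).1 ht
  rw [theta_eq_of_eq_frac (pow_ne_zero (n + 1) hp.out.ne_zero) ⟨t, ht⟩ a ha, map_intCast]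
  symm
  apply theta_eq_of_eq_frac
  show p • t = _
  rw [ha, QZ.nsmul_frac, pow_succ', QZ.frac_mul_mul a (p ^ n) hp.out.ne_zero]

section stepIQZ

variable (hp2 : p ≠ 2)
  (d : ∀ m : ℕ, Gamma p m ≃* Multiplicative (ZMod (p ^ m)))
  (hd : ∀ m (g : Gamma p (m + 1)), ThetaUnit.red p m (toAdd (d (m + 1) g)) =
      toAdd (d m ⟨red p (Nat.le_succ m) g, red_mem_Gamma _ g.2⟩))
  (μT : Nat.Primes → ℕ → ℚˣ → QZ)
  (μP : ∀ n : ℕ, Additive ℚ_[p]ˣ →+ QZ)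
  (H0 : ∀ n x, (p ^ n) • μP n x = 0)
  (H1 : ∀ (q : Nat.Primes) (n : ℕ) (hq : (q : ℕ) ≠ p) (b : ℚˣ),
      μT q n b = QZ.frac (((toAdd (d n ⟨angle (p := p) n q
        ((Nat.coprime_primes q.2 hp.out).2 hq), angle_mem_Gamma _ _ _⟩)).val : ℤ) *
          padicValRat q (b : ℚ)) (p ^ n))
  (H2 : ∀ n, μP n (Additive.ofMul pUnit) = 0)
  (H3 : ∀ n x, p • μP (n + 1) x = μP n x)
  (H4 : ∃ x, μP 1 x ≠ 0)

/-- The `ZMod (p^n)`-valued tame symbol attached to `d`. -/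
noncomputable def lamTOf (q : Nat.Primes) (n : ℕ) : ℚˣ →* Multiplicative (ZMod (p ^ n)) :=
  if hq : (q : ℕ) = p then 1 else
    (zpowersHom _ (d n ⟨angle (p := p) n q ((Nat.coprime_primes q.2 hp.out).2 hq),
      angle_mem_Gamma _ _ _⟩)).comp
      ({ toFun := fun b => Multiplicative.ofAdd (padicValRat q (b : ℚ))
         map_one' := by simp
         map_mul' := fun a b => by
           haveI : Fact (q : ℕ).Prime := ⟨q.2⟩
           rw [Units.val_mul, padicValRat.mul a.ne_zero b.ne_zero, ofAdd_add] } :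
        ℚˣ →* Multiplicative ℤ)

lemma lamTOf_apply (q : Nat.Primes) (n : ℕ) (hq : (q : ℕ) ≠ p) (b : ℚˣ) :
    lamTOf d q n b = (d n ⟨angle (p := p) n q ((Nat.coprime_primes q.2 hp.out).2 hq),
      angle_mem_Gamma _ _ _⟩) ^ (padicValRat q (b : ℚ)) := by
  simp [lamTOf, hq, zpowersHom_apply]

/-- The `ZMod (p^n)`-valued wild symbol attached to `μP`. -/
noncomputable def lamPOf (n : ℕ) (μ : Additive ℚ_[p]ˣ →+ QZ) (h0 : ∀ x, (p ^ n) • μ x = 0) :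
    ℚ_[p]ˣ →* Multiplicative (ZMod (p ^ n)) :=
  AddMonoidHom.toMultiplicativeRight
    ((QZ.theta (pow_ne_zero n hp.out.ne_zero)).comp (μ.codRestrict (QZ.tors (p ^ n)) h0))

lemma toAdd_lamPOf (n : ℕ) (μ : Additive ℚ_[p]ˣ →+ QZ) (h0 : ∀ x, (p ^ n) • μ x = 0)
    (x : ℚ_[p]ˣ) :
    toAdd (lamPOf n μ h0 x) =
      QZ.theta (pow_ne_zero n hp.out.ne_zero) ⟨μ (Additive.ofMul x), h0 _⟩ := rfl

lemma jT_toAdd_lamPOf (n : ℕ) (μ : Additive ℚ_[p]ˣ →+ QZ) (h0 : ∀ x, (p ^ n) • μ x = 0)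
    (x : ℚ_[p]ˣ) : QZ.jT (p ^ n) (toAdd (lamPOf n μ h0 x)) = μ (Additive.ofMul x) := by
  rw [toAdd_lamPOf, QZ.jT_theta]

include H1 in
lemma jT_toAdd_lamTOf (q : Nat.Primes) (n : ℕ) (hq : (q : ℕ) ≠ p) (b : ℚˣ) :
    QZ.jT (p ^ n) (toAdd (lamTOf d q n b)) = μT q n b := by
  haveI : NeZero (p ^ n) := ⟨pow_ne_zero _ hp.out.ne_zero⟩
  rw [lamTOf_apply d q n hq b, toAdd_zpow, H1 q n hq b, zsmul_eq_mul]
  set c := toAdd (d n ⟨angle (p := p) n q ((Nat.coprime_primes q.2 hp.out).2 hq),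
    angle_mem_Gamma _ _ _⟩) with hc
  have : ((padicValRat q (b : ℚ) : ℤ) : ZMod (p ^ n)) * c =
      (((c.val : ℤ) * padicValRat q (b : ℚ) : ℤ) : ZMod (p ^ n)) := by
    push_cast
    rw [ZMod.natCast_zmod_val, mul_comm]
  rw [this, QZ.jT_intCast]

include hp2 hd H0 H1 H2 H3 H4 in
/-- **Step (I), `ℚ/ℤ`-valued, finite-set form.** -/
theorem stepI_QZ_finset :
    ∃ eps : ∀ n, (ZMod (p ^ n))ˣ,
      (∀ n, ThetaUnit.red p n (eps (n + 1) : ZMod (p ^ (n + 1))) = eps n) ∧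
      ∀ (n : ℕ) (b : ℚˣ) (T : Finset Nat.Primes), (∀ q ∈ T, (q : ℕ) ≠ p) →
        (∀ q : Nat.Primes, (q : ℕ) ≠ p → padicValRat q (b : ℚ) ≠ 0 → q ∈ T) →
        ∑ q ∈ T, μT q n b +
          ((eps n : ZMod (p ^ n)).val) • μP n (Additive.ofMul (ratUnitsToPadic p b)) = 0 := by
  obtain ⟨eps, heps, hsum⟩ := stepI_finset hp2 d hd (lamTOf d) (fun n => lamPOf n (μP n) (H0 n))
    (fun q n hq b => lamTOf_apply d q n hq b)
    (fun n => by
      apply toAdd.injective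
      rw [toAdd_lamPOf, toAdd_one]
      have : (⟨μP n (Additive.ofMul pUnit), H0 n _⟩ : ↥(QZ.tors (p ^ n))) = 0 :=
        Subtype.ext (H2 n)
      rw [this, map_zero])
    (fun n x => by
      rw [toAdd_lamPOf, toAdd_lamPOf]
      have h3 := H3 n (Additive.ofMul x)
      have ht' : (p ^ n) • (p • μP (n + 1) (Additive.ofMul x)) = 0 := by
        rw [h3]; exact H0 n _
      rw [red_theta n (μP (n + 1) (Additive.ofMul x)) (H0 (n + 1) _) ht']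
      congr 1
      exact Subtype.ext h3)
    (by
      obtain ⟨x, hx⟩ := H4
      refine ⟨Additive.toMul x, fun h1 => hx ?_⟩
      have h2 := congrArg toAdd h1
      rw [toAdd_lamPOf, toAdd_one] at h2
      have h3 := congrArg (QZ.jT (p ^ 1)) h2
      rw [QZ.jT_theta, map_zero] at h3
      exact h3)
  refine ⟨eps, heps, fun n b T hTp hT => ?_⟩
  haveI : NeZero (p ^ n) := ⟨pow_ne_zero _ hp.out.ne_zero⟩
  have h := congrArg (QZ.jT (p ^ n)) (hsum n b T hTp hT)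
  rw [map_add, map_sum, map_zero] at h
  rw [← h]
  congr 1
  · apply Finset.sum_congr rfl
    intro q hq
    exact (jT_toAdd_lamTOf d μT H1 q n (hTp q hq) b).symm
  · rw [← jT_toAdd_lamPOf n (μP n) (H0 n) (ratUnitsToPadic p b), ← map_nsmul, nsmul_eq_mul,
      ZMod.natCast_zmod_val]

include hp2 hd H0 H1 H2 H3 H4 in
/-- **Step (I), `ℚ/ℤ`-valued**, tame sum as a `finsum`. -/
theorem stepI_QZ :
    ∃ eps : ∀ n, (ZMod (p ^ n))ˣ,
      (∀ n, ThetaUnit.red p n (eps (n + 1) : ZMod (p ^ (n + 1))) = eps n) ∧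
      ∀ (n : ℕ) (b : ℚˣ),
        (∑ᶠ (q : Nat.Primes) (_ : (q : ℕ) ≠ p), μT q n b) +
          ((eps n : ZMod (p ^ n)).val) • μP n (Additive.ofMul (ratUnitsToPadic p b)) = 0 := by
  obtain ⟨eps, heps, hsum⟩ := stepI_QZ_finset hp2 d hd μT μP H0 H1 H2 H3 H4
  refine ⟨eps, heps, fun n b => ?_⟩
  classical
  set T : Finset Nat.Primes :=
    ((finite_primes_padicValRat_ne_zero b).toFinset).filter (fun q => (q : ℕ) ≠ p) with hTdef
  have hTp : ∀ q ∈ T, (q : ℕ) ≠ p := fun q hq => (Finset.mem_filter.1 hq).2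
  have hT : ∀ q : Nat.Primes, (q : ℕ) ≠ p → padicValRat q (b : ℚ) ≠ 0 → q ∈ T := by
    intro q hqp hq
    exact Finset.mem_filter.2 ⟨(Set.Finite.mem_toFinset _).2 hq, hqp⟩
  rw [← hsum n b T hTp hT]
  congr 1
  apply finsum_cond_eq_sum_of_cond_iff
  intro q hq
  constructor
  · intro hqp
    apply hT q hqp
    intro h0
    apply hq
    rw [H1 q n hqp b, h0, mul_zero]
    exact QZ.frac_zero _
  · intro hqT
    exact hTp q hqT

end stepIQZ

/-- `stepI_QZ` at helper87's `dlog` (so that `c_q = chiVal (towerChar p hp2 n) Frob_q`). -/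
theorem stepI_QZ87 (hp2 : p ≠ 2)
    (μT : Nat.Primes → ℕ → ℚˣ → QZ) (μP : ∀ n : ℕ, Additive ℚ_[p]ˣ →+ QZ)
    (H0 : ∀ n x, (p ^ n) • μP n x = 0)
    (H1 : ∀ (q : Nat.Primes) (n : ℕ) (hq : (q : ℕ) ≠ p) (b : ℚˣ),
      μT q n b = QZ.frac (((toAdd (CycloGlobal87.dlog p hp2 n ⟨angle (p := p) n q
        ((Nat.coprime_primes q.2 hp.out).2 hq), angle_mem_Gamma _ _ _⟩)).val : ℤ) *
          padicValRat q (b : ℚ)) (p ^ n))
    (H2 : ∀ n, μP n (Additive.ofMul pUnit) = 0)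
    (H3 : ∀ n x, p • μP (n + 1) x = μP n x)
    (H4 : ∃ x, μP 1 x ≠ 0) :
    ∃ eps : ∀ n, (ZMod (p ^ n))ˣ,
      (∀ n, ThetaUnit.red p n (eps (n + 1) : ZMod (p ^ (n + 1))) = eps n) ∧
      ∀ (n : ℕ) (b : ℚˣ),
        (∑ᶠ (q : Nat.Primes) (_ : (q : ℕ) ≠ p), μT q n b) +
          ((eps n : ZMod (p ^ n)).val) • μP n (Additive.ofMul (ratUnitsToPadic p b)) = 0 :=
  stepI_QZ hp2 (CycloGlobal87.dlog p hp2) (dlog87_compat hp2) μT μP H0 H1 H2 H3 H4

end Fermat.Agent.S55.CycloRecip90
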