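/-
S55 / 34 (helper90): the discrete logarithm `dlog : Γ_m ≃* Multiplicative (ZMod (p^m))` with
respect to the generator `⟨1+p⟩`, and its compatibility along the tower (= hypothesis `hd` of
`stepI`).  Mathlib only (+ the abbreviation `ThetaUnit.red`).
-/
import Fermat.Agent.S55.CycloRecip90.StepI

set_option autoImplicit false

namespace Fermat.Agent.S55.CycloRecip90

open Function Multiplicative

open Fermat.Agent.S55.CycloRecip37 (ThetaUnit.red)

variable {p : ℕ} [hp : Fact p.Prime]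

omit hp in
lemma coprime_one_add_self (p : ℕ) : (1 + p).Coprime p := by simp

/-- The generator `⟨1+p⟩ = [1+p]^(p-1)` of `Γ_m`. -/
noncomputable def gammaGen (p m : ℕ) [Fact p.Prime] : Gamma p m :=
  ⟨angle (p := p) m (1 + p) (coprime_one_add_self p), angle_mem_Gamma m _ _⟩

lemma coe_gammaGen (m : ℕ) :
    ((gammaGen p m : Gamma p m) : (ZMod (p ^ (m + 1)))ˣ) =
      angle (p := p) m (1 + p) (coprime_one_add_self p) := rfl

lemma orderOf_unitOfCoprime_one_add (hp2 : p ≠ 2) (m : ℕ) :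
    orderOf (ZMod.unitOfCoprime (1 + p)
      (Nat.Coprime.pow_right (m + 1) (coprime_one_add_self p))) = p ^ m := by
  rw [← orderOf_injective (Units.coeHom _) Units.coeHom_injective, Units.coeHom_apply,
    ZMod.coe_unitOfCoprime]
  have := ZMod.orderOf_one_add_prime hp.out hp2 m
  push_cast
  exact this

/-- `⟨1+p⟩` has order `p^m` (`p` odd). -/
lemma orderOf_gammaGen (hp2 : p ≠ 2) (m : ℕ) : orderOf (gammaGen p m) = p ^ m := by
  rw [← Subgroup.orderOf_coe, coe_gammaGen, angle]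
  have hcop : Nat.Coprime (p ^ m) (p - 1) := by
    apply Nat.Coprime.pow_left
    exact (Nat.coprime_self_sub_right hp.out.one_lt.le).2 (Nat.coprime_one_right p)
  rw [Nat.Coprime.orderOf_pow (by rw [orderOf_unitOfCoprime_one_add hp2 m]; exact hcop),
    orderOf_unitOfCoprime_one_add hp2 m]

lemma red_gammaGen {m n : ℕ} (h : m ≤ n) :
    red p h ((gammaGen p n : Gamma p n) : (ZMod (p ^ (n + 1)))ˣ) =
      ((gammaGen p m : Gamma p m) : (ZMod (p ^ (m + 1)))ˣ) := by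
  rw [coe_gammaGen, coe_gammaGen, red_angle]

/-- `k ↦ ⟨1+p⟩^k`, `Multiplicative (ZMod (p^m)) →* Γ_m`. -/
noncomputable def expHom (hp2 : p ≠ 2) (m : ℕ) : Multiplicative (ZMod (p ^ m)) →* Gamma p m where
  toFun k := gammaGen p m ^ (toAdd k).val
  map_one' := by simp
  map_mul' a b := by
    haveI : NeZero (p ^ m) := ⟨pow_ne_zero _ hp.out.ne_zero⟩
    rw [toAdd_mul, ZMod.val_add, ← pow_add]
    have h := pow_mod_orderOf (gammaGen p m) ((toAdd a).val + (toAdd b).val)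
    rw [orderOf_gammaGen hp2 m] at h
    exact h

lemma expHom_apply (hp2 : p ≠ 2) (m : ℕ) (k : Multiplicative (ZMod (p ^ m))) :
    expHom hp2 m k = gammaGen p m ^ (toAdd k).val := rfl

lemma expHom_bijective (hp2 : p ≠ 2) (m : ℕ) : Bijective (expHom (p := p) hp2 m) := by
  haveI : NeZero (p ^ m) := ⟨pow_ne_zero _ hp.out.ne_zero⟩
  haveI : Finite (Gamma p m) := Nat.finite_of_card_ne_zero (by
    rw [card_Gamma hp2 m]; exact (pow_pos hp.out.pos m).ne')
  rw [Nat.bijective_iff_injective_and_card]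
  constructor
  · intro a b hab
    rw [expHom_apply, expHom_apply, pow_eq_pow_iff_modEq, orderOf_gammaGen hp2 m] at hab
    have hval : (toAdd a).val = (toAdd b).val :=
      Nat.ModEq.eq_of_lt_of_lt hab (ZMod.val_lt _) (ZMod.val_lt _)
    exact toAdd.injective (ZMod.val_injective _ hval)
  · rw [card_Gamma hp2 m, Nat.card_congr (Multiplicative.toAdd), Nat.card_zmod]

/-- **The discrete logarithm** `Γ_m ≃* Multiplicative (ZMod (p^m))`, `⟨1+p⟩ ↦ 1`. -/
noncomputable def dlog (hp2 : p ≠ 2) (m : ℕ) : Gamma p m ≃* Multiplicative (ZMod (p ^ m)) :=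
  (MulEquiv.ofBijective (expHom (p := p) hp2 m) (expHom_bijective hp2 m)).symm

lemma dlog_symm_apply (hp2 : p ≠ 2) (m : ℕ) (k : Multiplicative (ZMod (p ^ m))) :
    (dlog (p := p) hp2 m).symm k = gammaGen p m ^ (toAdd k).val := rfl

/-- `dlog (⟨1+p⟩^n) = n`. -/
lemma dlog_gammaGen_pow (hp2 : p ≠ 2) (m n : ℕ) :
    dlog (p := p) hp2 m (gammaGen p m ^ n) = ofAdd ((n : ZMod (p ^ m))) := by
  rw [← MulEquiv.eq_symm_apply, dlog_symm_apply, toAdd_ofAdd, ZMod.val_natCast]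
  conv_rhs => rw [← orderOf_gammaGen hp2 m]
  exact (pow_mod_orderOf _ _).symm

lemma dlog_gammaGen (hp2 : p ≠ 2) (m : ℕ) :
    dlog (p := p) hp2 m (gammaGen p m) = ofAdd (1 : ZMod (p ^ m)) := by
  have := dlog_gammaGen_pow (p := p) hp2 m 1
  rwa [pow_one, Nat.cast_one] at this

/-- Every element of `Γ_m` is `⟨1+p⟩^k` with `k = (dlog g).val`. -/
lemma eq_gammaGen_pow (hp2 : p ≠ 2) (m : ℕ) (g : Gamma p m) :
    g = gammaGen p m ^ (toAdd (dlog (p := p) hp2 m g)).val := by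
  rw [← dlog_symm_apply hp2, MulEquiv.symm_apply_apply]

/-- **Tower compatibility of `dlog`** (literally hypothesis `hd` of `stepI`). -/
theorem dlog_compat (hp2 : p ≠ 2) (m : ℕ) (g : Gamma p (m + 1)) :
    ThetaUnit.red p m (toAdd (dlog (p := p) hp2 (m + 1) g)) =
      toAdd (dlog (p := p) hp2 m ⟨red p (Nat.le_succ m) g, red_mem_Gamma _ g.2⟩) := by
  set k := toAdd (dlog (p := p) hp2 (m + 1) g) with hk
  have hg : g = gammaGen p (m + 1) ^ k.val := eq_gammaGen_pow hp2 (m + 1) g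
  have hred : (⟨red p (Nat.le_succ m) g, red_mem_Gamma _ g.2⟩ : Gamma p m) =
      gammaGen p m ^ k.val := by
    apply Subtype.ext
    show red p (Nat.le_succ m) (g : (ZMod (p ^ (m + 1 + 1)))ˣ) = _
    rw [SubmonoidClass.coe_pow, ← red_gammaGen (Nat.le_succ m), ← map_pow]
    congr 1
    conv_lhs => rw [hg]
    rw [SubmonoidClass.coe_pow]
  rw [hred, dlog_gammaGen_pow, toAdd_ofAdd, ZMod.castHom_apply, ZMod.natCast_val]

/-- **`stepI` with `dlog` plugged in.** -/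
theorem stepI_dlog (hp2 : p ≠ 2)
    (lamT : Nat.Primes → ∀ n : ℕ, ℚˣ →* Multiplicative (ZMod (p ^ n)))
    (lamP : ∀ n : ℕ, ℚ_[p]ˣ →* Multiplicative (ZMod (p ^ n)))
    (H1 : ∀ (q : Nat.Primes) (n : ℕ) (hq : (q : ℕ) ≠ p) (b : ℚˣ),
      lamT q n b = (dlog (p := p) hp2 n ⟨angle (p := p) n q ((Nat.coprime_primes q.2 hp.out).2 hq),
        angle_mem_Gamma _ _ _⟩) ^ (padicValRat q (b : ℚ)))
    (H2 : ∀ n, lamP n pUnit = 1)
    (H3 : ∀ n x, ThetaUnit.red p n (toAdd (lamP (n + 1) x)) = toAdd (lamP n x))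
    (H4 : ∃ x, lamP 1 x ≠ 1) :
    ∃ eps : ∀ n, (ZMod (p ^ n))ˣ,
      (∀ n, ThetaUnit.red p n (eps (n + 1) : ZMod (p ^ (n + 1))) = eps n) ∧
      ∀ (n : ℕ) (b : ℚˣ),
        (∑ᶠ (q : Nat.Primes) (_ : (q : ℕ) ≠ p), toAdd (lamT q n b)) +
          (eps n : ZMod (p ^ n)) * toAdd (lamP n (ratUnitsToPadic p b)) = 0 :=
  stepI hp2 (dlog hp2) (dlog_compat hp2) lamT lamP H1 H2 H3 H4

end Fermat.Agent.S55.CycloRecip90
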