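/-
S55 / 34 (helper90): `dlog` along arbitrary steps of the tower (`m ≤ n`), the `val`-form used by
`GlobalInv91.carry_lift_sub_carry_isCob₂` / `CycloRecip37.DescendK.S_carry_eq_zero`, and the
version with target `ZMod (p^m * p^s)`.  Mathlib only.
-/
import Fermat.Agent.S55.CycloRecip90.DLog

set_option autoImplicit false

namespace Fermat.Agent.S55.CycloRecip90

open Function Multiplicative

variable {p : ℕ} [hp : Fact p.Prime]

/-- Tower compatibility of `dlog` for arbitrary `m ≤ n`. -/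
theorem dlog_compat_le (hp2 : p ≠ 2) {m n : ℕ} (h : m ≤ n) (g : Gamma p n) :
    ZMod.castHom (pow_dvd_pow p h) (ZMod (p ^ m)) (toAdd (dlog (p := p) hp2 n g)) =
      toAdd (dlog (p := p) hp2 m ⟨red p h g, red_mem_Gamma h g.2⟩) := by
  set k := toAdd (dlog (p := p) hp2 n g) with hk
  have hg : g = gammaGen p n ^ k.val := eq_gammaGen_pow hp2 n g
  have hred : (⟨red p h g, red_mem_Gamma h g.2⟩ : Gamma p m) = gammaGen p m ^ k.val := by
    apply Subtype.ext
    show red p h (g : (ZMod (p ^ (n + 1)))ˣ) = _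
    rw [SubmonoidClass.coe_pow, ← red_gammaGen h, ← map_pow]
    congr 1
    conv_lhs => rw [hg]
    rw [SubmonoidClass.coe_pow]
  rw [hred, dlog_gammaGen_pow, toAdd_ofAdd, ZMod.castHom_apply, ZMod.natCast_val]

/-- `val`-form: `dlog_m(red g) = dlog_n(g) mod p^m`. -/
theorem dlog_val_mod (hp2 : p ≠ 2) {m n : ℕ} (h : m ≤ n) (g : Gamma p n) :
    (toAdd (dlog (p := p) hp2 m ⟨red p h g, red_mem_Gamma h g.2⟩)).val =
      (toAdd (dlog (p := p) hp2 n g)).val % p ^ m := by
  haveI : NeZero (p ^ n) := ⟨pow_ne_zero _ hp.out.ne_zero⟩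
  rw [← dlog_compat_le hp2 h g, ZMod.castHom_apply, ← ZMod.natCast_val, ZMod.val_natCast]

/-- `dlog` at level `m + s` with target `ZMod (p^m * p^s)` (the shape of
`carry_lift_sub_carry_isCob₂`). -/
noncomputable def dlogMul (hp2 : p ≠ 2) (m s : ℕ) :
    Gamma p (m + s) ≃* Multiplicative (ZMod (p ^ m * p ^ s)) :=
  (dlog (p := p) hp2 (m + s)).trans
    (AddEquiv.toMultiplicative (ZMod.ringEquivCongr (pow_add p m s)).toAddEquiv)

lemma toAdd_dlogMul (hp2 : p ≠ 2) (m s : ℕ) (g : Gamma p (m + s)) :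
    toAdd (dlogMul (p := p) hp2 m s g) =
      ZMod.ringEquivCongr (pow_add p m s) (toAdd (dlog (p := p) hp2 (m + s) g)) := rfl

lemma val_dlogMul (hp2 : p ≠ 2) (m s : ℕ) (g : Gamma p (m + s)) :
    (toAdd (dlogMul (p := p) hp2 m s g)).val = (toAdd (dlog (p := p) hp2 (m + s) g)).val := by
  rw [toAdd_dlogMul, ZMod.ringEquivCongr_val]

/-- The lift property in the shape `(χ g).val = (χ̃ g).val % p^m`. -/
theorem dlog_val_eq_dlogMul_val_mod (hp2 : p ≠ 2) (m s : ℕ) (g : Gamma p (m + s)) :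
    (toAdd (dlog (p := p) hp2 m ⟨red p (Nat.le_add_right m s) g,
        red_mem_Gamma (Nat.le_add_right m s) g.2⟩)).val =
      (toAdd (dlogMul (p := p) hp2 m s g)).val % p ^ m := by
  rw [val_dlogMul, dlog_val_mod hp2 (Nat.le_add_right m s) g]

end Fermat.Agent.S55.CycloRecip90
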