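/-
S55 / 34 (helper90): from a `Γ_m`-valued character `τ : G →* (ZMod (p^(m+1)))ˣ` of ANY group `G`
(e.g. `CycloTower46.Tower.towerChar p m` on `G_ℚ`, `localTowerChar p m q` on `G_{ℚ_q}`, or its
factorisation through a finite quotient) to the `ZMod (p^m)`-valued character
`charZ = dlog ∘ τ`, with kernel, surjectivity and the lift property
`(χ_m g).val = (χ̃_{m+s} g).val % p^m` in the shape of `GlobalInv91.carry_lift_sub_carry_isCob₂`
and `CycloRecip37.DescendK.S_carry_eq_zero`.  Mathlib only.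
-/
import Fermat.Agent.S55.CycloRecip90.DLogLe

set_option autoImplicit false

namespace Fermat.Agent.S55.CycloRecip90

open Function Multiplicative

variable {p : ℕ} [hp : Fact p.Prime] {G : Type*} [Group G]

/-- The `ZMod (p^m)`-valued character `dlog ∘ τ` attached to a `Γ_m`-valued character `τ`. -/
noncomputable def charZ (hp2 : p ≠ 2) (m : ℕ) (τ : G →* (ZMod (p ^ (m + 1)))ˣ)
    (hτ : ∀ g, τ g ∈ Gamma p m) : G →* Multiplicative (ZMod (p ^ m)) :=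
  (dlog (p := p) hp2 m).toMonoidHom.comp (τ.codRestrict (Gamma p m) hτ)

lemma charZ_apply (hp2 : p ≠ 2) (m : ℕ) (τ : G →* (ZMod (p ^ (m + 1)))ˣ)
    (hτ : ∀ g, τ g ∈ Gamma p m) (g : G) :
    charZ hp2 m τ hτ g = dlog (p := p) hp2 m ⟨τ g, hτ g⟩ := rfl

lemma charZ_eq_one_iff (hp2 : p ≠ 2) (m : ℕ) (τ : G →* (ZMod (p ^ (m + 1)))ˣ)
    (hτ : ∀ g, τ g ∈ Gamma p m) (g : G) : charZ hp2 m τ hτ g = 1 ↔ τ g = 1 := by
  rw [charZ_apply, MulEquiv.map_eq_one_iff]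
  exact ⟨fun h => congrArg Subtype.val h, fun h => Subtype.ext h⟩

lemma ker_charZ (hp2 : p ≠ 2) (m : ℕ) (τ : G →* (ZMod (p ^ (m + 1)))ˣ)
    (hτ : ∀ g, τ g ∈ Gamma p m) : (charZ hp2 m τ hτ).ker = τ.ker := by
  ext g
  rw [MonoidHom.mem_ker, MonoidHom.mem_ker, charZ_eq_one_iff]

lemma charZ_surjective (hp2 : p ≠ 2) (m : ℕ) (τ : G →* (ZMod (p ^ (m + 1)))ˣ)
    (hτ : ∀ g, τ g ∈ Gamma p m) (hrange : τ.range = Gamma p m) :
    Surjective (charZ hp2 m τ hτ) := by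
  intro k
  have hmem : (((dlog (p := p) hp2 m).symm k : Gamma p m) : (ZMod (p ^ (m + 1)))ˣ) ∈ τ.range := by
    rw [hrange]; exact ((dlog (p := p) hp2 m).symm k).2
  obtain ⟨g, hg⟩ := hmem
  refine ⟨g, ?_⟩
  rw [charZ_apply]
  have : (⟨τ g, hτ g⟩ : Gamma p m) = (dlog (p := p) hp2 m).symm k := Subtype.ext hg
  rw [this, MulEquiv.apply_symm_apply]

/-- Value on an element whose `τ`-value is `⟨a⟩` (e.g. a Frobenius at `a = q ≠ p`). -/
lemma charZ_of_eq_angle (hp2 : p ≠ 2) (m : ℕ) (τ : G →* (ZMod (p ^ (m + 1)))ˣ)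
    (hτ : ∀ g, τ g ∈ Gamma p m) (g : G) (a : ℕ) (ha : a.Coprime p)
    (hg : τ g = angle (p := p) m a ha) :
    charZ hp2 m τ hτ g = dlog (p := p) hp2 m ⟨angle (p := p) m a ha, angle_mem_Gamma m a ha⟩ := by
  rw [charZ_apply]
  congr 1
  exact Subtype.ext hg

/-- The same character at level `m + s` with target `ZMod (p^m * p^s)`. -/
noncomputable def charZMul (hp2 : p ≠ 2) (m s : ℕ) (τ : G →* (ZMod (p ^ (m + s + 1)))ˣ)
    (hτ : ∀ g, τ g ∈ Gamma p (m + s)) : G →* Multiplicative (ZMod (p ^ m * p ^ s)) :=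
  (dlogMul (p := p) hp2 m s).toMonoidHom.comp (τ.codRestrict (Gamma p (m + s)) hτ)

lemma charZMul_apply (hp2 : p ≠ 2) (m s : ℕ) (τ : G →* (ZMod (p ^ (m + s + 1)))ˣ)
    (hτ : ∀ g, τ g ∈ Gamma p (m + s)) (g : G) :
    charZMul hp2 m s τ hτ g = dlogMul (p := p) hp2 m s ⟨τ g, hτ g⟩ := rfl

lemma val_charZMul (hp2 : p ≠ 2) (m s : ℕ) (τ : G →* (ZMod (p ^ (m + s + 1)))ˣ)
    (hτ : ∀ g, τ g ∈ Gamma p (m + s)) (g : G) :
    (toAdd (charZMul hp2 m s τ hτ g)).val = (toAdd (charZ hp2 (m + s) τ hτ g)).val := by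
  rw [charZMul_apply, charZ_apply, val_dlogMul]

lemma ker_charZMul (hp2 : p ≠ 2) (m s : ℕ) (τ : G →* (ZMod (p ^ (m + s + 1)))ˣ)
    (hτ : ∀ g, τ g ∈ Gamma p (m + s)) : (charZMul hp2 m s τ hτ).ker = τ.ker := by
  ext g
  rw [MonoidHom.mem_ker, MonoidHom.mem_ker, charZMul_apply, MulEquiv.map_eq_one_iff]
  exact ⟨fun h => congrArg Subtype.val h, fun h => Subtype.ext h⟩

/-- **The lift property**: if `τ_m = red ∘ τ_{m+s}` then
`(χ_m g).val = (χ̃_{m+s} g).val % p^m`. -/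
theorem charZ_lift (hp2 : p ≠ 2) (m s : ℕ)
    (τm : G →* (ZMod (p ^ (m + 1)))ˣ) (hτm : ∀ g, τm g ∈ Gamma p m)
    (τms : G →* (ZMod (p ^ (m + s + 1)))ˣ) (hτms : ∀ g, τms g ∈ Gamma p (m + s))
    (hcompat : ∀ g, red p (Nat.le_add_right m s) (τms g) = τm g) (g : G) :
    (toAdd (charZ hp2 m τm hτm g)).val =
      (toAdd (charZMul hp2 m s τms hτms g)).val % p ^ m := by
  have hsub : (⟨τm g, hτm g⟩ : Gamma p m) =
      ⟨red p (Nat.le_add_right m s) (τms g), red_mem_Gamma _ (hτms g)⟩ :=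
    Subtype.ext (hcompat g).symm
  rw [charZMul_apply, ← dlog_val_eq_dlogMul_val_mod hp2 m s ⟨τms g, hτms g⟩, charZ_apply, hsub]

/-- Iterating a one-step compatibility `red (τ (m+1) g) = τ m g` gives the `s`-step one. -/
theorem red_iterate (τ : ∀ m : ℕ, G →* (ZMod (p ^ (m + 1)))ˣ)
    (hstep : ∀ m g, red p (Nat.le_succ m) (τ (m + 1) g) = τ m g) (m s : ℕ) (g : G) :
    red p (Nat.le_add_right m s) (τ (m + s) g) = τ m g := by
  induction s with
  | zero =>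
    have : red p (Nat.le_add_right m 0) = MonoidHom.id _ := ZMod.unitsMap_self _
    rw [this]; rfl
  | succ s ih =>
    rw [← ih, ← hstep (m + s) g]
    have hcomp : (red p (Nat.le_add_right m s)).comp (red p (Nat.le_succ (m + s))) =
        red p (Nat.le_add_right m (s + 1)) := ZMod.unitsMap_comp _ _
    rw [← hcomp]; rfl

end Fermat.Agent.S55.CycloRecip90
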