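/-
S55 / 34-E (helper90): the `p`-adic exponent.  A compatible family of `Γ_m`-valued homomorphisms
`θ_m : ℚ_[p]ˣ → (ℤ/p^(m+1))ˣ` killing `p`, whose first layer has kernel of index `p`, is
`θ_m = ρ_p^c` for ONE `p`-adic unit `c` (`ρ_p = fakeSymbol`).  Mathlib only.
-/
import Fermat.Agent.S55.CycloRecip90.Compat

set_option autoImplicit false

namespace Fermat.Agent.S55.CycloRecip90

open Function

variable {p : ℕ} [hp : Fact p.Prime]

/-- A compatible sequence of residues `c m mod p^m` is the sequence of residues of a `p`-adic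
integer. -/
theorem exists_padicInt_of_compat (c : ℕ → ℕ) (h : ∀ n, c (n + 1) ≡ c n [MOD p ^ n]) :
    ∃ z : ℤ_[p], ∀ n, PadicInt.toZModPow n z = (c n : ZMod (p ^ n)) := by
  set f : ℕ → ℤ := fun n => (c n : ℤ) with hf
  have hi : ∀ i, (p : ℤ) ^ i ∣ f (i + 1) - f i := by
    intro i
    have h1 : ((p ^ i : ℕ) : ℤ) ∣ ((c (i + 1) : ℕ) : ℤ) - ((c i : ℕ) : ℤ) :=
      Nat.modEq_iff_dvd.1 (h i).symm
    rw [Nat.cast_pow] at h1
    exact h1
  refine ⟨PadicInt.ofIntSeq _ (PadicInt.isCauSeq_padicNorm_of_pow_dvd_sub f p hi), fun n => ?_⟩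
  rw [PadicInt.toZModPow_ofIntSeq_of_pow_dvd_sub f p hi n]
  simp [hf]

/-- A `p`-adic integer whose residue mod `p` is prime to `p` is a unit. -/
lemma isUnit_of_toZModPow_one {z : ℤ_[p]} {a : ℕ} (ha : a.Coprime p)
    (hz : PadicInt.toZModPow 1 z = (a : ZMod (p ^ 1))) : IsUnit z := by
  rw [PadicInt.isUnit_iff]
  by_contra hne
  have hlt : ‖z‖ < 1 := lt_of_le_of_ne (PadicInt.norm_le_one z) hne
  rw [PadicInt.norm_lt_one_iff_dvd] at hlt
  have hmem : z ∈ Ideal.span {(p : ℤ_[p]) ^ 1} := by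
    rw [pow_one]; exact Ideal.mem_span_singleton.2 hlt
  rw [← PadicInt.ker_toZModPow, RingHom.mem_ker, hz, ZMod.natCast_eq_zero_iff, pow_one] at hmem
  have := Nat.Coprime.eq_one_of_dvd ha.symm hmem
  exact hp.out.one_lt.ne' this

/-- **Step (I), algebra**: a tower-compatible family `θ_m : ℚ_[p]ˣ → Γ_m` killing `p`, with
`[ℚ_[p]ˣ : ker θ_1] = p`, is `ρ_p^c` for one `p`-adic unit `c`; the exponent at level `m` is
`(c mod p^m).val`. -/
theorem exists_padic_unit_exponent (hp2 : p ≠ 2)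
    (θ : ∀ m : ℕ, ℚ_[p]ˣ →* (ZMod (p ^ (m + 1)))ˣ)
    (hθΓ : ∀ m x, θ m x ∈ Gamma p m) (hθp : ∀ m, θ m pUnit = 1)
    (hred : ∀ m x, red p (Nat.le_succ m) (θ (m + 1) x) = θ m x)
    (hidx : (θ 1).ker.index = p ^ 1) :
    ∃ c : ℤ_[p], IsUnit c ∧
      ∀ m x, θ m x = (fakeSymbol (p := p) m x) ^ (PadicInt.toZModPow m c).val := by
  choose c hc using fun m => exists_pow_eq_fakeSymbol (p := p) hp2 m (θ m) (hθΓ m) (hθp m)
  have hcompat : ∀ n, c (n + 1) ≡ c n [MOD p ^ n] := fun n =>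
    exponent_compat hp2 (Nat.le_succ n) (θ (n + 1)) (θ n) (hred n) (c (n + 1)) (c n)
      (hc (n + 1)) (hc n)
  obtain ⟨z, hz⟩ := exists_padicInt_of_compat (p := p) c hcompat
  have hcop : Nat.Coprime (c 1) p := coprime_of_index_ker hp2 le_rfl (θ 1) (c 1) (hc 1) hidx
  refine ⟨z, isUnit_of_toZModPow_one hcop (hz 1), fun m x => ?_⟩
  rw [hc m x]
  apply (pow_fakeSymbol_eq_iff hp2 m _ _).2
  rw [hz m, ZMod.val_natCast]
  exact (Nat.mod_modEq _ _).symm

end Fermat.Agent.S55.CycloRecip90
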